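/-
P-SS2 row 1065 (SS2-C5f CUSP11), sub-architect helper22: **interfaces**.

Level `L = M' q`, `q ∤ M'` prime, `E₁ = ModelField K₁ (M' q)`, `E₀ = ModelField K₁ (M' q q)`,
`α = heckeAlphaBar K₁ (M' q) q : E₁ → E₀` (same `q`-expansion), chart `y = 1 / j`.
`J = j(t)`, `J₁ = j(t^q)` (level `L`), `J₂ = j(t^(q²))` (level `L q`).

UNIFORM local equation of the component `C₁₁` at ALL its cusps:
`x₁ = 1 - J / J₂` (`ε(x₁) = 1 - j(t) / j(ζ t) = (1 - ζ) · unit` at the middle cusps,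
`x₁ = 1 - t^(q² - 1) (…)` at the cusps of `C₂₀`).

* `PhiSharpStatement q` (WP1) : the modular polynomial `Φ ∈ ℤ[X][T]` of level `q` in Kronecker
  form `Φ = (T - X^q)(T^q - X) + q Ψ` with the SHARP degree bounds
  `deg_T Ψ ≤ q`, `deg_X Ψ ≤ q`, no term `X^q T^q`, and the two modular equations
  `Φ(j(t^q), j(t)) = 0`, `Φ(j(t^q), j(t^(q²))) = 0`.
* `JMinpolyStatement M' q` (WP2) : `Φ(J₁, T) = (T - J) · minpoly_{E₁}(J₂)` and
  `[E₀ : α E₁] = q`.
-/
import Mathlib
import Fermat.Agent.H27.Igusa.Defs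
import Fermat.Agent.H22.ES.KLModel
import Fermat.Prelude.Def_ModularCurve_HeckeOperator

set_option autoImplicit false
set_option linter.style.haveILetI false
set_option linter.unusedSectionVars false

noncomputable section

namespace Fermat.Agent.H22.SS2

open Polynomial ModularCurve AlgebraicCurve
open Fermat.Agent.H22.KL Fermat.Agent.H27

/-- **PHI-SHARP** (WP1).  The modular polynomial of level `q` (inner variable `X ↦ j(t^q)`,
outer variable `T`), in Kronecker form with sharp degree bounds. -/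
def PhiSharpStatement (q : ℕ) [NeZero q] : Prop :=
  ∃ Φ Ψ : Polynomial (Polynomial ℤ),
    Φ.Monic ∧ Φ.natDegree = q + 1 ∧
    Φ = (X - C (X ^ q)) * (X ^ q - C X) + C (C (q : ℤ)) * Ψ ∧
    Ψ.natDegree ≤ q ∧ (∀ b : ℕ, (Ψ.coeff b).natDegree ≤ q) ∧ (Ψ.coeff q).coeff q = 0 ∧
    ∀ (K : Type) [Field K] [CharZero K],
      (Φ.map (evalAt (baseS K q))).eval (jqModC K) = 0 ∧
      (Φ.map (evalAt (baseS K q))).eval (rootInf K q) = 0

/-- **J-MINPOLY** (WP2).  In `E₀ = ModelField K₁ (M' q q)` over `E₁ = ModelField K₁ (M' q)`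
(along `α`): the degree is `q` and for every monic `Φ ∈ ℤ[X][T]` of degree `q + 1` with
`Φ(J₁, J) = 0 = Φ(J₁, J₂)` the minimal polynomial of `J₂` is `Φ(J₁, T) / (T - J)`. -/
def JMinpolyStatement (M' q : ℕ) [NeZero M'] [NeZero q] : Prop :=
  ∀ (K₁ : Type) [Field K₁] [Algebra ℚ K₁] [FiniteDimensional ℚ K₁]
    (J J₁ : ModelField K₁ (M' * q)) (J₂ : ModelField K₁ (M' * q * q)),
    (J : LaurentSeries K₁) = jqModC K₁ →
    (J₁ : LaurentSeries K₁) = baseS K₁ q →
    (J₂ : LaurentSeries K₁) = rootInf K₁ q →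
    letI : Algebra (ModelField K₁ (M' * q)) (ModelField K₁ (M' * q * q)) :=
      (heckeAlphaBar K₁ (M' * q) q).toRingHom.toAlgebra
    FiniteDimensional (ModelField K₁ (M' * q)) (ModelField K₁ (M' * q * q)) ∧
    Module.finrank (ModelField K₁ (M' * q)) (ModelField K₁ (M' * q * q)) = q ∧
    ∀ Φ : Polynomial (Polynomial ℤ), Φ.Monic → Φ.natDegree = q + 1 →
      (Φ.map (evalAt (baseS K₁ q))).eval (jqModC K₁) = 0 →
      (Φ.map (evalAt (baseS K₁ q))).eval (rootInf K₁ q) = 0 →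
      Φ.map (eval₂RingHom (Int.castRingHom (ModelField K₁ (M' * q))) J₁) =
        (X - C J) * minpoly (ModelField K₁ (M' * q)) J₂

end Fermat.Agent.H22.SS2

end
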