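/-
P-SS2 row 1065 (SS2-C5f CUSP11), sub-architect helper22: **interfaces, part 3** (concrete).

* `ModelKronJStatement M' q` (KRON-J): the Kronecker congruence for `j` itself on the Gauss
  valuation `V_∞ = vInf` of level `L = M' q`:  `j(t^q) / j(t)^q - 1 ∈ 𝔪_{V_∞}`.
  Proof: `Fermat.Agent.H8.SS.exists_delta (jqModC ℤ)` gives `j(t^q) = j^q + q δ`, `δ ∈ ℤ((t))`;
  in `InM` take `a = q δ`, `b = j^q` (`gRho a = 0`, `gRho b ≠ 0`), cf.
  `Fermat.Agent.H86.SS2.isVUnit_gaussVal_of_int`, `gIota_int`, `gRho_int`.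
-/
import Mathlib
import Fermat.Agent.H7.SS2.Vertical
import Fermat.Agent.H27.Igusa.Defs

set_option autoImplicit false
set_option linter.unusedSectionVars false

noncomputable section

namespace Fermat.Agent.H22.SS2

open ModularCurve AlgebraicCurve
open Fermat.Agent.H22.KL Fermat.Agent.H27

/-- **KRON-J.**  See the module docstring. -/
def ModelKronJStatement (M' q : ℕ) [NeZero M'] [NeZero q] : Prop :=
  ∀ (K₁ : Type) [Field K₁] [Algebra ℚ K₁] [FiniteDimensional ℚ K₁]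
    (A₀ : Type) [CommRing A₀] [IsDomain A₀] [IsDiscreteValuationRing A₀]
    [Algebra A₀ K₁] [IsFractionRing A₀ K₁],
    ((q : ℕ) : A₀) ∈ IsLocalRing.maximalIdeal A₀ →
    ∀ (J J₁ : ModelField K₁ (M' * q)),
    (J : LaurentSeries K₁) = jqModC K₁ →
    (J₁ : LaurentSeries K₁) = baseS K₁ q →
    J₁ / J ^ q - 1 ∈ (Fermat.Agent.H7.SS2.vInf K₁ A₀ (M' * q)).nonunits

end Fermat.Agent.H22.SS2

end
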