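/-
P-SS2 row 1109 (SS2-C5f-4 KRON-J), helper22 (second seat): the Kronecker congruence for `j`
on the Gauss valuation, `j(t^q) / j(t)^q - 1 ∈ 𝔪_{V_∞}`, from helper7's Frobenius congruence
`Fermat.Agent.H7.SS2.inM_frob` and helper86's `isVUnit_gaussVal_of_int`.
-/
import Mathlib
import Fermat.Agent.H22.SS2.Cusp11Interfaces3
import Fermat.Agent.H7.SS2.RegLModel
import Fermat.Agent.H86.SS2.Emb3Gauss

set_option autoImplicit false
set_option linter.unusedSectionVars false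
set_option linter.style.haveILetI false
set_option linter.unusedVariables false

noncomputable section

namespace Fermat.Agent.H22.SS2

open ModularCurve AlgebraicCurve
open Fermat.Agent.H22.KL Fermat.Agent.H27 Fermat.Agent.H7.SS2 Fermat.Agent.H7.SS
open Fermat.Agent.H86.SS2

/-- **KRON-J** (row 1109). -/
theorem cusp11_modelKronJ (M' q : ℕ) [NeZero M'] [NeZero q] (hq : q.Prime) :
    ModelKronJStatement M' q := by
  intro K₁ _ _ _ A₀ _ _ _ _ _ hqm J J₁ hJ hJ₁
  haveI : Fact q.Prime := ⟨hq⟩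
  have hqA : ¬ IsUnit ((q : ℕ) : A₀) := (IsLocalRing.mem_maximalIdeal _).1 hqm
  have hcm : coeffMap (Int.castRingHom K₁) (jqModC ℤ) = jqModC K₁ := coeffMap_jqModC _
  have hred : Fermat.Agent.H8.SS.redQ q (jqModC ℤ) ≠ 0 := by
    intro h0
    have h1 : Fermat.Agent.H8.SS.redQ q (jqModC ℤ) = jqModC (ZMod q) := coeffMap_jqModC _
    rw [h1] at h0
    have h2 := coeff_jqModC_neg_one (ZMod q)
    rw [h0, HahnSeries.coeff_zero] at h2
    exact zero_ne_one h2
  have hJu : IsVUnit (vInf K₁ A₀ (M' * q)) J :=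
    isVUnit_gaussVal_of_int _ (hasGNF_model K₁ A₀ (M' * q)) q hqm J (jqModC ℤ)
      (by rw [hJ, hcm]) hred
  have hcoe : ((J₁ - J ^ q : ModelField K₁ (M' * q)) : LaurentSeries K₁)
      = qExpand K₁ q (coeffMap (Int.castRingHom K₁) (jqModC ℤ))
        - (coeffMap (Int.castRingHom K₁) (jqModC ℤ)) ^ q := by
    have h1 : ((J₁ - J ^ q : ModelField K₁ (M' * q)) : LaurentSeries K₁)
        = (J₁ : LaurentSeries K₁) - (J : LaurentSeries K₁) ^ q := rfl
    rw [h1, hJ₁, hJ, hcm]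
    rfl
  have hF : J₁ - J ^ q ∈ (vInf K₁ A₀ (M' * q)).nonunits := by
    rw [mem_nonunits_vInf_iff, hcoe]
    refine inM_frob (A₀ := A₀) _ q hq hqA (jqModC ℤ) ?_
    rw [← hcoe]
    exact (J₁ - J ^ q).2
  have hJ0 : J ≠ 0 := hJu.1
  have hform : J₁ / J ^ q - 1 = (J₁ - J ^ q) * (J⁻¹) ^ q := by
    rw [inv_pow]
    field_simp
  rw [hform]
  exact Fermat.Agent.H86.SS2.nonunits_mul_mem hF
    ((vInf K₁ A₀ (M' * q)).pow_mem hJu.2.2 q)

end Fermat.Agent.H22.SS2

end
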