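/-
P-SS2 row 1065 (SS2-C5f CUSP11), sub-architect helper22: **interfaces, part 2**.

* `NormPlaceUnifStatement` (Mathlib only; complement of `Fermat.Agent.H12.SS2.NormPlaceStatement`
  (b)) : `E / E'` finite, `O'` a discrete valuation subring of `E'`, `Z ∈ E` integral over `O'`
  whose norm `N_{E/E'}(Z)` is a uniformiser of `O'`.  Then `Z` is a UNIFORMISER of every
  valuation subring `P` of `E` above `O'` at which it is a non-unit.

  Proof sketch (notation of `Fermat.Agent.H46.SS2.PlaceCore`): `S` = integral closure of `O'` in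
  `E`; `S / Z S ≃ O' / N O'` is a field, every nonzero `e ∈ E` is `Z^k₁ a / (Z^k₂ b)` with
  `a, b ∈ S ∖ Z S` (`exists_decomp`), and `e ∈ 𝔪_P ↔ k₁ > k₂` (`IsCentredAt.mem_nonunits_iff`);
  hence `e / Z ∈ P` for `e ∈ 𝔪_P`.
-/
import Mathlib

set_option autoImplicit false

namespace Fermat.Agent.H22.SS2

/-- **NORMPLACE-UNIF.**  See the module docstring. -/
def NormPlaceUnifStatement : Prop :=
  ∀ (E' E : Type) [Field E'] [Field E] [Algebra E' E] [FiniteDimensional E' E] [CharZero E']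
    (O' : ValuationSubring E'), O' ≠ ⊤ → IsPrincipalIdealRing O' →
    ∀ (Z : E),
      (∃ p : Polynomial E', p.Monic ∧ (∀ i, p.coeff i ∈ O') ∧ Polynomial.aeval Z p = 0) →
      (Algebra.norm E' Z ≠ 0 ∧ Algebra.norm E' Z ∈ O'.nonunits ∧
          ∀ x ∈ O'.nonunits, x / Algebra.norm E' Z ∈ O') →
      ∀ P : ValuationSubring E, P.comap (algebraMap E' E) = O' → Z ∈ P.nonunits →
        ∀ x ∈ P.nonunits, x / Z ∈ P

end Fermat.Agent.H22.SS2
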