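/-
P-SS2 row 1065 (SS2-C5f CUSP11), helper22: **WP5, the uniformiser property** of
`S = 1 - J / J₂` at `V₁₁`.

* `c11_mem_nonunits` (Mathlib + valuation lemmas): `V` a valuation subring of `E` of residue
  characteristic `q`, above `O₁` along `α` and above `O₂` along `β`; `J₁ ≡ J^q` modulo `𝔪_{O₁}`
  and `J ≡ J₁^q` modulo `𝔪_{O₂}` (the two Kronecker congruences at level `L`); `β J = α J₁`,
  `β J₁ = J₂`.  Then `(α J / J₂)^q ≡ 1`, hence `1 - α J / J₂ ∈ 𝔪_V`.
* `c11_isUniformiser` : with `NormPlaceUnifStatement`, an element `S ∈ 𝔪_V`, integral over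
  `O' = V ∩ E'`, whose norm is a uniformiser of `O'`, is a uniformiser of `V`.
-/
import Mathlib
import Fermat.Agent.H99.SS2.Through
import Fermat.Agent.H22.SS2.Cusp11Interfaces2

set_option autoImplicit false
set_option linter.unusedSectionVars false
set_option linter.style.haveILetI false
set_option linter.unusedVariables false

noncomputable section

namespace Fermat.Agent.H22.SS2

open Polynomial
open Fermat.Agent.H22.KL Fermat.Agent.H99.SS2

section Nonunit

variable {E : Type} [Field E]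

theorem c11_unit_of_sub_one {V : ValuationSubring E} {x : E} (h : x - 1 ∈ V.nonunits) :
    x ∈ V ∧ x ∉ V.nonunits := by
  have hx : x ∈ V := by
    have : x = (x - 1) + 1 := by ring
    rw [this]; exact V.add_mem _ _ (mem_of_mem_nonunits V h) V.one_mem
  refine ⟨hx, fun hx' => ?_⟩
  have h1 : (1 : E) ∈ V.nonunits := by
    have : (1 : E) = x - (x - 1) := by ring
    rw [this]; exact sub_mem_nonunits V hx' h
  rw [ValuationSubring.mem_nonunits_iff, map_one] at h1
  exact lt_irrefl _ h1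

theorem c11_mem_of_pow_mem {V : ValuationSubring E} {u : E} {n : ℕ} (hn : 0 < n)
    (h : u ^ n ∈ V) (h' : u ^ n ∉ V.nonunits) : u ∈ V := by
  by_contra hu
  have hu0 : u ≠ 0 := fun h0 => hu (h0 ▸ V.zero_mem)
  have hinv : u⁻¹ ∈ V.nonunits := by
    rw [mem_nonunits_iff_inv_not_mem V (inv_ne_zero hu0), inv_inv]; exact hu
  have hinvn : (u⁻¹) ^ n ∈ V.nonunits := by
    obtain ⟨m, rfl⟩ := Nat.exists_eq_succ_of_ne_zero hn.ne'
    rw [pow_succ]
    exact mul_mem_nonunits_left V (V.pow_mem (mem_of_mem_nonunits V hinv) m) hinv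
  have h1 : (1 : E) ∈ V.nonunits := by
    have : (1 : E) = (u⁻¹) ^ n * u ^ n := by
      rw [← mul_pow, inv_mul_cancel₀ hu0, one_pow]
    rw [this]; exact mul_mem_nonunits_right V h hinvn
  rw [ValuationSubring.mem_nonunits_iff, map_one] at h1
  exact lt_irrefl _ h1

theorem c11_mem_nonunits_of_pow {V : ValuationSubring E} {x : E} (hx : x ∈ V) {n : ℕ}
    (h : x ^ n ∈ V.nonunits) : x ∈ V.nonunits := by
  by_contra hx'
  exact pow_not_mem_nonunits hx hx' n h

/-- In residue characteristic `q`: `u^q ≡ 1` implies `u ≡ 1`. -/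
theorem c11_sub_one_mem_of_pow {V : ValuationSubring E} {q : ℕ} (hq : q.Prime)
    (hqV : (q : E) ∈ V.nonunits) {u : E} (hu : u ∈ V) (h : u ^ q - 1 ∈ V.nonunits) :
    u - 1 ∈ V.nonunits := by
  have h1V : (u - 1) ∈ V := sub_mem hu V.one_mem
  apply c11_mem_nonunits_of_pow h1V (n := q)
  obtain ⟨r, hr⟩ := exists_add_pow_prime_eq hq (⟨u, hu⟩ : V) (-1)
  have hr' : (u + -1) ^ q = u ^ q + (-1) ^ q + (q : E) * u * (-1) * (r : E) := by
    have := congrArg (fun z : V => (z : E)) hr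
    simpa using this
  rw [sub_eq_add_neg, hr']
  rcases hq.eq_two_or_odd' with h2 | hodd
  · subst h2
    have : u ^ 2 + (-1) ^ 2 + ((2 : ℕ) : E) * u * (-1) * (r : E) =
        (u ^ 2 - 1) + ((2 : ℕ) : E) * (1 - u * (r : E)) := by push_cast; ring
    rw [this]
    exact add_mem_nonunits V h (mul_mem_nonunits_right V
      (sub_mem V.one_mem (V.mul_mem _ _ hu r.2)) hqV)
  · rw [hodd.neg_one_pow]
    have : u ^ q + -1 + (q : E) * u * (-1) * (r : E) =
        (u ^ q - 1) + (q : E) * (-(u * (r : E))) := by ring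
    rw [this]
    exact add_mem_nonunits V h (mul_mem_nonunits_right V
      (neg_mem (V.mul_mem _ _ hu r.2)) hqV)

/-- **`S = 1 - J / J₂` vanishes on `V₁₁`.** -/
theorem c11_mem_nonunits {F : Type} [Field F] (α β : F →+* E)
    (O₁ O₂ : ValuationSubring F) (V : ValuationSubring E)
    (hα : V.comap α = O₁) (hβ : V.comap β = O₂)
    (q : ℕ) (hq : q.Prime) (hqV : (q : E) ∈ V.nonunits)
    (J J₁ : F) (J₂ : E) (hJ : J ≠ 0) (hJ₁ : J₁ ≠ 0)
    (hβJ : β J = α J₁) (hβJ₁ : β J₁ = J₂)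
    (h₁ : J₁ / J ^ q - 1 ∈ O₁.nonunits)
    (h₂ : J / J₁ ^ q - 1 ∈ O₂.nonunits) :
    1 - α J / J₂ ∈ V.nonunits := by
  have hαJ : α J ≠ 0 := (map_ne_zero α).2 hJ
  have hαJ₁ : α J₁ ≠ 0 := (map_ne_zero α).2 hJ₁
  have hJ₂ : J₂ ≠ 0 := by rw [← hβJ₁]; exact (map_ne_zero β).2 hJ₁
  have ha : α J₁ / (α J) ^ q - 1 ∈ V.nonunits := by
    rw [← hα, mem_nonunits_comap_iff] at h₁
    simpa using h₁
  have hb : α J₁ / J₂ ^ q - 1 ∈ V.nonunits := by
    rw [← hβ, mem_nonunits_comap_iff] at h₂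
    simpa [hβJ, hβJ₁] using h₂
  obtain ⟨haV, haU⟩ := c11_unit_of_sub_one ha
  obtain ⟨hbV, hbU⟩ := c11_unit_of_sub_one hb
  have hainv : (α J₁ / (α J) ^ q)⁻¹ ∈ V := inv_mem_of_not_mem_nonunits haU
  have hupow : (α J / J₂) ^ q = α J₁ / J₂ ^ q * (α J₁ / (α J) ^ q)⁻¹ := by
    rw [div_pow]; field_simp
  have hupV : (α J / J₂) ^ q ∈ V := by rw [hupow]; exact V.mul_mem _ _ hbV hainv
  have hainvU : (α J₁ / (α J) ^ q)⁻¹ ∉ V.nonunits := by
    intro h
    have h1 : (1 : E) ∈ V.nonunits := by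
      have : (1 : E) = α J₁ / (α J) ^ q * (α J₁ / (α J) ^ q)⁻¹ :=
        (mul_inv_cancel₀ (div_ne_zero hαJ₁ (pow_ne_zero _ hαJ))).symm
      rw [this]; exact mul_mem_nonunits_left V haV h
    rw [ValuationSubring.mem_nonunits_iff, map_one] at h1
    exact lt_irrefl _ h1
  have hupU : (α J / J₂) ^ q ∉ V.nonunits := by
    rw [hupow]; exact mul_not_mem_nonunits hbV hainv hbU hainvU
  have huV : α J / J₂ ∈ V := c11_mem_of_pow_mem hq.pos hupV hupU
  have hup1 : (α J / J₂) ^ q - 1 ∈ V.nonunits := by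
    have : (α J / J₂) ^ q - 1 =
        ((α J₁ / J₂ ^ q - 1) - (α J₁ / (α J) ^ q - 1)) * (α J₁ / (α J) ^ q)⁻¹ := by
      rw [hupow]; field_simp; ring
    rw [this]
    exact mul_mem_nonunits_right V hainv (sub_mem_nonunits V hb ha)
  have := c11_sub_one_mem_of_pow hq hqV huV hup1
  have h2 : 1 - α J / J₂ = -(α J / J₂ - 1) := by ring
  rw [h2]; exact neg_mem_nonunits V this

end Nonunit

section Unif

variable {E' E : Type} [Field E'] [Field E] [Algebra E' E] [FiniteDimensional E' E]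
  [CharZero E']

/-- **Uniformiser from the norm.** -/
theorem c11_isUniformiser (hNU : NormPlaceUnifStatement)
    (O' : ValuationSubring E') (hO : O' ≠ ⊤) (hpir : IsPrincipalIdealRing O')
    (V : ValuationSubring E) (hV : V.comap (algebraMap E' E) = O')
    (S : E)
    (hSint : ∃ p : Polynomial E', p.Monic ∧ (∀ i, p.coeff i ∈ O') ∧ aeval S p = 0)
    (π w : E') (hπ : IsUniformiser E' O' π) (hw : w ∈ O') (hw' : w⁻¹ ∈ O') (hw0 : w ≠ 0)
    (hN : Algebra.norm E' S = π * w)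
    (hSV : S ∈ V.nonunits) : IsUniformiser E V S := by
  obtain ⟨hπ0, hπn, hπu⟩ := hπ
  have hN0 : Algebra.norm E' S ≠ 0 := by rw [hN]; exact mul_ne_zero hπ0 hw0
  have hS0 : S ≠ 0 := by
    rintro rfl
    apply hN0
    exact Algebra.norm_zero
  refine ⟨hS0, hSV, ?_⟩
  refine hNU E' E O' hO hpir S hSint ⟨hN0, ?_, fun x hx => ?_⟩ V hV hSV
  · rw [hN]; exact mul_mem_nonunits_right O' hw hπn
  · rw [hN]
    have : x / (π * w) = x / π * w⁻¹ := by field_simp
    rw [this]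
    exact O'.mul_mem _ _ (hπu x hx) hw'

end Unif

end Fermat.Agent.H22.SS2

end
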