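/-
P-SS2 row 1065 (SS2-C5f CUSP11), helper22: **the abstract final theorem, package form**.

`cusp11_of_pkg` : helper12's `reg11_core_gen` with `hunif` replaced by `S ∈ 𝔪_{V₁₁}` (the
uniformiser property follows from the norm by `NormPlaceUnifStatement`) and `u = 1`.
Structural hypotheses exactly as in `Fermat.Agent.H12.SS2.reg11_core_gen`; the package is
`S`, `hSV : S ∈ V₁₁.nonunits`, `hSint` (integral over `B'_{𝔪'}`), `hN : N(S) = ϖ w`, `w` a unit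
of `B'_{𝔪'}`  (= the three outputs of `Cusp11PkgStatement`).
-/
import Mathlib
import Fermat.Agent.H12.SS2.Reg11Gen
import Fermat.Agent.H22.SS2.Cusp11Unif

set_option autoImplicit false
set_option linter.unusedSectionVars false
set_option linter.style.haveILetI false
set_option linter.unusedVariables false

noncomputable section

namespace Fermat.Agent.H22.SS2

open Polynomial
open Fermat.Agent.H22.KL Fermat.Agent.H11.SS2 Fermat.Agent.H45
open Fermat.Agent.H12.SS2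

section OfPkg

variable (A : Type) [CommRing A] [IsDomain A] [IsDiscreteValuationRing A]
  (E' E : Type) [Field E'] [Field E] [Algebra A E'] [Algebra A E] [Algebra E' E]
  [IsScalarTower A E' E] [CharZero E'] [FiniteDimensional E' E]

/-- **CUSP11 from the package.**  See the module docstring. -/
theorem cusp11_of_pkg (hH : LocalHartogsStatement) (hNP : NormPlaceStatement)
    (hNU : NormPlaceUnifStatement)
    (hinj' : Function.Injective (algebraMap A E'))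
    (ϖ : A) (hϖ : Irreducible ϖ)
    (y' : E') (hy' : Transcendental A y')
    (hfd' : ∃ n : ℕ, Nonempty (Module.Basis (Fin n) (chartField A E' y') E'))
    (y : E) (hyy : algebraMap E' E y' = y) (hy : Transcendental A y)
    (hfd : ∃ n : ℕ, Nonempty (Module.Basis (Fin n) (chartField A E y) E))
    (𝔪 : Ideal (chartClosure A E y)) (h𝔪 : 𝔪.IsMaximal)
    (hϖ𝔪 : algebraMap A (chartClosure A E y) ϖ ∈ 𝔪)
    (𝔪' : Ideal (chartClosure A E' y')) (h𝔪' : 𝔪'.IsPrime)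
    (hL : Fermat.Agent.H99.SS2.LiesOverAlong A E E' (algebraMap E' E) y' y 𝔪' 𝔪)
    (V₂₀ V₁₁ V₀₂ : ValuationSubring E)
    (hV20 : IsVertical A E ϖ y V₂₀) (hV11 : IsVertical A E ϖ y V₁₁)
    (hV02 : IsVertical A E ϖ y V₀₂)
    (hC : ∀ z : E, z ∈ V₂₀ → z ∈ V₁₁ → z ∈ V₀₂ → z ∈ gaussClosure A E ϖ y)
    (hthru : Through A E y 𝔪 V₁₁)
    (hA20 : ∃ s : chartClosure A E y, (s : E) ∈ V₂₀.nonunits ∧ s ∉ 𝔪)
    (hA02 : ∃ s : chartClosure A E y, (s : E) ∈ V₀₂.nonunits ∧ s ∉ 𝔪)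
    (V₁₀ : ValuationSubring E') (hVV' : V₁₁.comap (algebraMap E' E) = V₁₀)
    (hres : ∀ z ∈ V₁₁, ∃ z' ∈ V₁₀, z - algebraMap E' E z' ∈ V₁₁.nonunits)
    (hfrac : ∀ z' ∈ V₁₀, ∃ d₁ d₂ : chartClosure A E' y',
      (d₂ : E') ∉ V₁₀.nonunits ∧ z' * (d₂ : E') = d₁)
    (U' : E') (hreg' : IsRegPoint A E' ϖ y' 𝔪' V₁₀ (algebraMap A E' ϖ) U')
    -- the package
    (S : E) (hSV : S ∈ V₁₁.nonunits)
    (hSint : ∃ p : Polynomial E', p.Monic ∧ (∀ i, InLoc A E' y' 𝔪' (p.coeff i)) ∧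
      Polynomial.aeval S p = 0)
    (w : E') (hw : IsLocUnit A E' y' 𝔪' w)
    (hN : Algebra.norm E' S = algebraMap A E' ϖ * w) :
    ∃ x₁ U : E, IsRegPoint A E ϖ y 𝔪 V₁₁ x₁ U := by
  obtain ⟨hne10, hpir10, hg10, hϖ10⟩ := hreg'.vert
  have hBV10 : ∀ z ∈ chartClosure A E' y', z ∈ V₁₀ := fun z hz =>
    hg10 z (Fermat.Agent.H89.klg_chartClosure_le_gaussClosure hϖ hy' hz)
  have hloc10 : ∀ z : E', Fermat.Agent.H99.SS2.InLoc A E' y' 𝔪' z → z ∈ V₁₀ := fun z hz =>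
    Fermat.Agent.H99.SS2.InLoc.mem_of_passesThrough hBV10 hreg'.thru hz
  have hSint10 : ∃ p : Polynomial E', p.Monic ∧ (∀ i, p.coeff i ∈ V₁₀) ∧ aeval S p = 0 := by
    obtain ⟨p, hp, hc, h0⟩ := hSint
    exact ⟨p, hp, fun i => hloc10 _ (hc i), h0⟩
  have hunif : IsUniformiser E V₁₁ S :=
    c11_isUniformiser hNU V₁₀ hne10 hpir10 V₁₁ hVV' S hSint10 (algebraMap A E' ϖ) w hreg'.unif
      (hloc10 _ hw.2.1) (hloc10 _ hw.2.2) hw.1 hN hSV
  refine reg11_core_gen A E' E hH hNP hinj' ϖ hϖ y' hy' hfd' y hyy hy hfd 𝔪 h𝔪 hϖ𝔪 𝔪' h𝔪' hL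
    V₂₀ V₁₁ V₀₂ hV20 hV11 hV02 hC hthru hA20 hA02 S hSint hunif
    V₁₀ hVV' hres hfrac U' hreg' w hw 1 ?_ (Or.inl ?_)
  · rw [hN]; simp
  · exact Fermat.Agent.H99.SS2.one_not_mem_of_isPrime h𝔪'

end OfPkg

end Fermat.Agent.H22.SS2

end
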