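/-
P-SS2 row 1065 (SS2-C5f CUSP11), helper22: **WP3, the abstract norm computation**.

Two levels `E'` (level `L`, chart `ι = 1 / J`) and `E` (level `L q`), `E / E'` finite of degree
`q`, `J₁ ∈ E'`, `J₂ ∈ E`, the modular polynomial `Φ = (T - X^q)(T^q - X) + q Ψ` with the sharp
degree bounds (`PhiSharpStatement`), `Φ(J₁, T) = (T - J) · minpoly(J₂)`.
At a cuspidal point `𝔪'` of the chart `ι` (`ι ∈ 𝔪'`) with `ρ = ι^q J₁ ≡ 1` and
`(1 - ρ) / q ∈ B'_{𝔪'}` the function `S = 1 - J / J₂` is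

* integral over `B'_{𝔪'}`  (`cusp11_integral`),
* of norm `q · w`, `w` a unit of `B'_{𝔪'}`  (`cusp11_norm`).
-/
import Mathlib
import Fermat.Agent.H99.SS2.Through
import Fermat.Agent.H11.SS2.Defs

set_option autoImplicit false
set_option linter.unusedSectionVars false
set_option linter.style.haveILetI false
set_option linter.unusedVariables false

noncomputable section

namespace Fermat.Agent.H22.SS2

open Polynomial
open Fermat.Agent.H22.KL Fermat.Agent.H99.SS2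

section Generic

variable {R : Type} [CommRing R]

/-- `ι^e P(J₁) ∈ B` as soon as `q · deg P ≤ e`, for a subring `B ∋ ι, ι^q J₁`. -/
theorem c11_normEval (B : Subring R) (ι J₁ : R) (q : ℕ) (hι : ι ∈ B) (hρ : ι ^ q * J₁ ∈ B)
    (P : Polynomial ℤ) (d e : ℕ) (hP : P.natDegree ≤ d) (hde : q * d ≤ e) :
    ι ^ e * P.eval₂ (Int.castRingHom R) J₁ ∈ B := by
  rw [Polynomial.eval₂_eq_sum_range' _ (Nat.lt_succ_of_le hP), Finset.mul_sum]
  refine Subring.sum_mem _ fun a ha => ?_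
  have ha' : a ≤ d := Nat.lt_succ_iff.1 (Finset.mem_range.1 ha)
  have hqa : q * a ≤ e := (Nat.mul_le_mul_left q ha').trans hde
  have h1 : ι ^ e = ι ^ (q * a) * ι ^ (e - q * a) := by
    rw [← pow_add, Nat.add_sub_cancel' hqa]
  have h2 : ι ^ e * (Int.castRingHom R (P.coeff a) * J₁ ^ a) =
      ((P.coeff a : ℤ) : R) * ((ι ^ q * J₁) ^ a * ι ^ (e - q * a)) := by
    rw [h1, mul_pow, ← pow_mul]
    simp only [eq_intCast]
    ring
  rw [h2]
  exact B.mul_mem (intCast_mem B _) (B.mul_mem (B.pow_mem hρ a) (B.pow_mem hι _))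

end Generic

section Norm

variable {E' E : Type} [Field E'] [Field E] [Algebra E' E] [FiniteDimensional E' E]

/-- The norm of `x - a` for a primitive element `x`. -/
theorem c11_norm_sub (x : E) (a : E')
    (hdeg : (minpoly E' x).natDegree = Module.finrank E' E) :
    Algebra.norm E' (x - algebraMap E' E a) =
      (-1) ^ Module.finrank E' E * (minpoly E' x).eval a := by
  set y : E := x - algebraMap E' E a with hy
  have hyi : IsIntegral E' y := IsIntegral.of_finite E' _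
  have hm : minpoly E' y = (minpoly E' x).comp (X + C a) := minpoly.sub_algebraMap x a
  have hdeg' : (minpoly E' y).natDegree = Module.finrank E' E := by
    rw [hm, natDegree_comp, natDegree_X_add_C, mul_one, hdeg]
  have htop : IntermediateField.adjoin E' {y} = ⊤ :=
    (Field.primitive_element_iff_minpoly_natDegree_eq E' y).2 hdeg'
  let e : IntermediateField.adjoin E' {y} ≃ₐ[E'] E :=
    (IntermediateField.equivOfEq htop).trans IntermediateField.topEquiv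
  let pb : PowerBasis E' E := (IntermediateField.adjoin.powerBasis hyi).map e
  have hgen : pb.gen = y := by
    simp [pb, e, IntermediateField.adjoin.powerBasis_gen]
  have hdim : pb.dim = Module.finrank E' E := by
    rw [← hdeg', ← hgen]
    exact (PowerBasis.natDegree_minpoly pb).symm
  have h := Algebra.PowerBasis.norm_gen_eq_coeff_zero_minpoly pb
  rw [hgen, hdim, hm] at h
  rw [h, coeff_zero_eq_eval_zero, eval_comp]
  simp

end Norm

section Phi

variable {E' : Type} [Field E']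

/-- The specialised modular polynomial `Φ(J₁, T)` in Kronecker form. -/
def c11F (q : ℕ) (J₁ : E') (G : Polynomial E') : Polynomial E' :=
  X ^ (q + 1) - C (J₁ ^ q) * X ^ q - C J₁ * X + C (J₁ ^ (q + 1)) + C (q : E') * G

theorem c11_map_eq (q : ℕ) (Φ Ψ : Polynomial (Polynomial ℤ))
    (hΦ : Φ = (X - C (X ^ q)) * (X ^ q - C X) + C (C (q : ℤ)) * Ψ) (J₁ : E') :
    Φ.map (eval₂RingHom (Int.castRingHom E') J₁) =
      c11F q J₁ (Ψ.map (eval₂RingHom (Int.castRingHom E') J₁)) := by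
  rw [hΦ, c11F]
  have h0 : eval₂ (Int.castRingHom E') J₁ (C (q : ℤ)) = (q : E') := by
    rw [eval₂_C]; simp
  simp only [Polynomial.map_add, Polynomial.map_mul, Polynomial.map_sub, Polynomial.map_pow,
    Polynomial.map_X, Polynomial.map_C, coe_eval₂RingHom, eval₂_X, h0, map_pow]
  ring

theorem c11_pow_mul_pow {ι J : E'} (hιJ : ι * J = 1) (n k : ℕ) :
    ι ^ (n + k) * J ^ k = ι ^ n := by
  rw [pow_add, mul_assoc, ← mul_pow, hιJ, one_pow, mul_one]

theorem c11F_coeff (q : ℕ) (J₁ : E') (G : Polynomial E') (k : ℕ) :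
    (c11F q J₁ G).coeff k = (if k = q + 1 then 1 else 0) - (if k = q then J₁ ^ q else 0)
      - (if k = 1 then J₁ else 0) + (if k = 0 then J₁ ^ (q + 1) else 0)
      + (q : E') * G.coeff k := by
  have h1 : (C (q : E') * G).coeff k = (q : E') * G.coeff k := coeff_C_mul _
  have h2 : (C (J₁ ^ q) * X ^ q : Polynomial E').coeff k = if k = q then J₁ ^ q else 0 := by
    rw [coeff_C_mul, coeff_X_pow]; split_ifs <;> simp
  have h3 : (C J₁ * X : Polynomial E').coeff k = if k = 1 then J₁ else 0 := by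
    rw [coeff_C_mul, coeff_X]
    by_cases h : k = 1
    · simp [h]
    · rw [if_neg h, if_neg (fun h' => h h'.symm), mul_zero]
  rw [c11F, coeff_add, coeff_add, coeff_sub, coeff_sub, h1, h2, h3, coeff_X_pow, coeff_C]

/-- All coefficients of `Π₀ = ι^N Φ(J₁, J T)` lie in `B`. -/
theorem c11_coeff_mem (B : Subring E') {q : ℕ} (hq : 2 ≤ q) {ι J J₁ : E'} (hιJ : ι * J = 1)
    (hι : ι ∈ B) (hρ : ι ^ q * J₁ ∈ B) {G : Polynomial E'} (hGd : G.natDegree ≤ q)
    (hg1 : ∀ k, ι ^ (q * q) * G.coeff k ∈ B) (k : ℕ) :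
    ι ^ (q * q + q) * ((c11F q J₁ G).coeff k * J ^ k) ∈ B := by
  have hQ : 1 ≤ q * q := Nat.mul_pos (by omega) (by omega)
  obtain ⟨e, he⟩ := Nat.exists_eq_add_of_le hQ
  rw [c11F_coeff]
  have key : ∀ t1 t2 t3 t4 t5 : E', ι ^ (q * q + q) * ((t1 - t2 - t3 + t4 + t5) * J ^ k) =
      ι ^ (q * q + q) * (t1 * J ^ k) - ι ^ (q * q + q) * (t2 * J ^ k)
        - ι ^ (q * q + q) * (t3 * J ^ k) + ι ^ (q * q + q) * (t4 * J ^ k)
        + ι ^ (q * q + q) * (t5 * J ^ k) := fun _ _ _ _ _ => by ring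
  rw [key]
  refine B.add_mem (B.add_mem (B.sub_mem (B.sub_mem ?_ ?_) ?_) ?_) ?_
  · by_cases h : k = q + 1
    · subst h
      rw [if_pos rfl, one_mul]
      have : q * q + q = e + (q + 1) := by omega
      rw [this, c11_pow_mul_pow hιJ]
      exact B.pow_mem hι _
    · rw [if_neg h, zero_mul, mul_zero]; exact B.zero_mem
  · by_cases h : k = q
    · subst h
      rw [if_pos rfl]
      have : ι ^ (k * k + k) * (J₁ ^ k * J ^ k) = (ι ^ k * J₁) ^ k * (ι * J) ^ k := by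
        rw [pow_add, mul_pow, mul_pow, ← pow_mul]; ring
      rw [this, hιJ, one_pow, mul_one]
      exact B.pow_mem hρ _
    · rw [if_neg h, zero_mul, mul_zero]; exact B.zero_mem
  · by_cases h : k = 1
    · subst h
      rw [if_pos rfl]
      have : ι ^ (q * q + q) * (J₁ * J ^ 1) = ι ^ e * (ι ^ q * J₁) * (ι * J) := by
        have h1 : q * q + q = e + q + 1 := by omega
        rw [h1, pow_succ, pow_add, pow_one]; ring
      rw [this, hιJ, mul_one]
      exact B.mul_mem (B.pow_mem hι _) hρ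
    · rw [if_neg h, zero_mul, mul_zero]; exact B.zero_mem
  · by_cases h : k = 0
    · subst h
      rw [if_pos rfl, pow_zero, mul_one]
      have : ι ^ (q * q + q) * J₁ ^ (q + 1) = (ι ^ q * J₁) ^ (q + 1) := by
        rw [mul_pow, ← pow_mul, mul_add, mul_one]
      rw [this]
      exact B.pow_mem hρ _
    · rw [if_neg h, zero_mul, mul_zero]; exact B.zero_mem
  · by_cases h : k ≤ q
    · have h1 : q * q + q = (q * q + (q - k)) + k := by omega
      have : ι ^ (q * q + q) * ((q : E') * G.coeff k * J ^ k) =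
          (q : E') * (ι ^ (q - k) * (ι ^ (q * q) * G.coeff k)) := by
        have h2 := c11_pow_mul_pow hιJ (q * q + (q - k)) k
        rw [← h1] at h2
        calc ι ^ (q * q + q) * ((q : E') * G.coeff k * J ^ k)
            = (q : E') * G.coeff k * (ι ^ (q * q + q) * J ^ k) := by ring
          _ = (q : E') * G.coeff k * ι ^ (q * q + (q - k)) := by rw [h2]
          _ = _ := by rw [pow_add]; ring
      rw [this]
      exact B.mul_mem (natCast_mem B q) (B.mul_mem (B.pow_mem hι _) (hg1 k))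
    · rw [coeff_eq_zero_of_natDegree_lt (by omega), mul_zero, zero_mul, mul_zero]
      exact B.zero_mem

/-- The constant coefficient of `Π₀`. -/
theorem c11_coeff_zero {q : ℕ} (hq : 2 ≤ q) {ι J J₁ : E'} (hιJ : ι * J = 1)
    (G : Polynomial E') :
    ι ^ (q * q + q) * (c11F q J₁ G).eval 0 =
      (ι ^ q * J₁) ^ (q + 1) + (q : E') * (ι * (ι ^ (q - 1) * (ι ^ (q * q) * G.coeff 0))) := by
  rw [← coeff_zero_eq_eval_zero, c11F_coeff, if_neg (by omega), if_neg (by omega),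
    if_neg (by omega), if_pos rfl]
  have h1 : ι ^ (q * q + q) = ι * (ι ^ (q - 1) * ι ^ (q * q)) := by
    rw [← pow_add, ← pow_succ']; congr 1; omega
  have h2 : ι ^ (q * q + q) * J₁ ^ (q + 1) = (ι ^ q * J₁) ^ (q + 1) := by
    rw [mul_pow, ← pow_mul, mul_add, mul_one]
  calc ι ^ (q * q + q) * (0 - 0 - 0 + J₁ ^ (q + 1) + (q : E') * G.coeff 0)
      = ι ^ (q * q + q) * J₁ ^ (q + 1) + (q : E') * (ι ^ (q * q + q) * G.coeff 0) := by ring
    _ = _ := by rw [h2, h1]; ring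

/-- The element `Ξ` with `ι^(N-1) Ψ_T(J₁, J) = ι Ξ`. -/
def c11Xi (q : ℕ) (ι : E') (G : Polynomial E') : E' :=
  ∑ k ∈ Finset.range q, (k : E') * (ι ^ (q - 1 - k) * (ι ^ (q * q) * G.coeff k))
    + (q : E') * (ι ^ (q - 1) * (ι ^ (q * q - q) * G.coeff q))

theorem c11Xi_mem (B : Subring E') {q : ℕ} {ι : E'} (hι : ι ∈ B) {G : Polynomial E'}
    (hg1 : ∀ k, ι ^ (q * q) * G.coeff k ∈ B) (hg2 : ι ^ (q * q - q) * G.coeff q ∈ B) :
    c11Xi q ι G ∈ B := by
  refine B.add_mem (B.sum_mem fun k _ => ?_) ?_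
  · exact B.mul_mem (natCast_mem B k) (B.mul_mem (B.pow_mem hι _) (hg1 k))
  · exact B.mul_mem (natCast_mem B q) (B.mul_mem (B.pow_mem hι _) hg2)

theorem c11_deriv_G {q : ℕ} (hq : 2 ≤ q) {ι J : E'} (hιJ : ι * J = 1)
    {G : Polynomial E'} (hGd : G.natDegree ≤ q) (e : ℕ) (he : q * q = e + 1) :
    ι ^ (e + q) * (derivative G).eval J = ι * c11Xi q ι G := by
  have hqq : q ≤ q * q := Nat.le_mul_self q
  rw [derivative_eval, sum_over_range' G (fun n => by simp) (q + 1) (by omega),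
    Finset.sum_range_succ, c11Xi, mul_add, mul_add, Finset.mul_sum, Finset.mul_sum]
  congr 1
  · refine Finset.sum_congr rfl fun k hk => ?_
    have hk' : k < q := Finset.mem_range.1 hk
    rcases Nat.eq_zero_or_pos k with h0 | h0
    · subst h0; simp
    · have h1 : e + q = (q * q + (q - 1 - k) + 1) + (k - 1) := by omega
      have h2 := c11_pow_mul_pow hιJ (q * q + (q - 1 - k) + 1) (k - 1)
      rw [← h1] at h2
      calc ι ^ (e + q) * (G.coeff k * (k : E') * J ^ (k - 1))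
          = G.coeff k * (k : E') * (ι ^ (e + q) * J ^ (k - 1)) := by ring
        _ = G.coeff k * (k : E') * ι ^ (q * q + (q - 1 - k) + 1) := by rw [h2]
        _ = _ := by rw [pow_succ, pow_add]; ring
  · have h1 : e + q = (1 + (q - 1) + (q * q - q)) + (q - 1) := by omega
    have h2 := c11_pow_mul_pow hιJ (1 + (q - 1) + (q * q - q)) (q - 1)
    rw [← h1] at h2
    calc ι ^ (e + q) * (G.coeff q * (q : E') * J ^ (q - 1))
        = G.coeff q * (q : E') * (ι ^ (e + q) * J ^ (q - 1)) := by ring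
      _ = G.coeff q * (q : E') * ι ^ (1 + (q - 1) + (q * q - q)) := by rw [h2]
      _ = _ := by rw [pow_add, pow_add, pow_one]; ring

/-- The derivative `Π₀'(1) = ι^(N-1) Φ_T(J₁, J)`. -/
theorem c11_deriv {q : ℕ} (hq : 2 ≤ q) {ι J J₁ : E'} (hιJ : ι * J = 1)
    {G : Polynomial E'} (hGd : G.natDegree ≤ q) (e : ℕ) (he : q * q = e + 1) :
    ι ^ (e + q) * (derivative (c11F q J₁ G)).eval J =
      ((q : E') + 1) * ι ^ e - (q : E') * (ι ^ q * J₁) ^ q - (ι ^ q * J₁) * ι ^ e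
        + (q : E') * (ι * c11Xi q ι G) := by
  have hd : (derivative (c11F q J₁ G)).eval J =
      ((q : E') + 1) * J ^ q - J₁ ^ q * ((q : E') * J ^ (q - 1)) - J₁
        + (q : E') * (derivative G).eval J := by
    rw [c11F]
    simp only [derivative_add, derivative_sub, derivative_X_pow, derivative_C,
      derivative_mul, derivative_X, eval_add, eval_sub, eval_mul, eval_C, eval_pow, eval_X,
      Nat.add_sub_cancel, Nat.cast_add, Nat.cast_one, eval_zero, eval_one]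
    ring
  rw [hd]
  have h1 : ι ^ (e + q) * J ^ q = ι ^ e := c11_pow_mul_pow hιJ e q
  have h2 : ι ^ (e + q) * J ^ (q - 1) = ι ^ (q * q) := by
    have h := c11_pow_mul_pow hιJ (q * q) (q - 1)
    have h' : q * q + (q - 1) = e + q := by omega
    rwa [h'] at h
  have h3 : ι ^ (q * q) * J₁ ^ q = (ι ^ q * J₁) ^ q := by
    rw [mul_pow, ← pow_mul]
  have h4 := c11_deriv_G hq hιJ hGd e he
  calc ι ^ (e + q) * (((q : E') + 1) * J ^ q - J₁ ^ q * ((q : E') * J ^ (q - 1)) - J₁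
        + (q : E') * (derivative G).eval J)
      = ((q : E') + 1) * (ι ^ (e + q) * J ^ q) - (q : E') * (J₁ ^ q * (ι ^ (e + q) * J ^ (q - 1)))
        - ι ^ (e + q) * J₁ + (q : E') * (ι ^ (e + q) * (derivative G).eval J) := by ring
    _ = _ := by
      rw [h1, h2, h4, mul_comm (J₁ ^ q) (ι ^ (q * q)), h3, pow_add]
      ring

end Phi

section Main

variable {A : Type} [CommRing A] {E' : Type} [Field E'] [Algebra A E']
variable {y : E'} {𝔪 : Ideal (chartClosure A E' y)}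

theorem c11_self_mem (y : E') : y ∈ chartClosure A E' y := by
  have h : y ∈ chartRing A E' y := Algebra.self_mem_adjoin_singleton A y
  exact (integralClosure (chartRing A E' y) E').algebraMap_mem ⟨y, h⟩

/-- The local ring `B(y)_𝔪` as a subring of `E'`. -/
def c11LocRing (h𝔪 : 𝔪.IsPrime) : Subring E' where
  carrier := {z | InLoc A E' y 𝔪 z}
  mul_mem' := fun hz hw => InLoc.mul h𝔪 hz hw
  one_mem' := InLoc.of_mem h𝔪 (Subalgebra.one_mem _)
  add_mem' := fun hz hw => InLoc.add h𝔪 hz hw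
  zero_mem' := InLoc.of_mem h𝔪 (Subalgebra.zero_mem _)
  neg_mem' := fun hz => InLoc.neg hz

theorem c11_mem_locRing (h𝔪 : 𝔪.IsPrime) {z : E'} :
    z ∈ c11LocRing h𝔪 ↔ InLoc A E' y 𝔪 z := Iff.rfl

theorem c11_not_inLocMax (h𝔪 : 𝔪.IsPrime) {z : E'}
    (h1 : InLocMax A E' y 𝔪 (z - 1)) : ¬ InLocMax A E' y 𝔪 z := by
  intro hz
  apply not_inLocMax_one h𝔪
  have : (1 : E') = z - (z - 1) := by ring
  rw [this]
  exact hz.sub h𝔪 h1

theorem c11_ne_zero_of_not_inLocMax (h𝔪 : 𝔪.IsPrime) {z : E'}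
    (h1 : ¬ InLocMax A E' y 𝔪 z) : z ≠ 0 := by
  rintro rfl
  apply h1
  have := InLocMax.of_mem h𝔪 (𝔪.zero_mem)
  simpa using this

/-- `z ≡ 1` modulo `𝔪 B_𝔪` is a local unit. -/
theorem c11_isLocUnit (h𝔪 : 𝔪.IsPrime) {z : E'} (hz : InLoc A E' y 𝔪 z)
    (h1 : InLocMax A E' y 𝔪 (z - 1)) : Fermat.Agent.H11.SS2.IsLocUnit A E' y 𝔪 z :=
  ⟨c11_ne_zero_of_not_inLocMax h𝔪 (c11_not_inLocMax h𝔪 h1), hz,
    hz.inv_of_not_inLocMax (c11_not_inLocMax h𝔪 h1)⟩

theorem c11_pow_sub_one (h𝔪 : 𝔪.IsPrime) {ρ : E'} (hρ : InLoc A E' y 𝔪 ρ)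
    (h1 : InLocMax A E' y 𝔪 (ρ - 1)) (n : ℕ) : InLocMax A E' y 𝔪 (ρ ^ n - 1) := by
  induction n with
  | zero =>
    rw [pow_zero, sub_self]
    have := InLocMax.of_mem h𝔪 (𝔪.zero_mem)
    simpa using this
  | succ k ih =>
    have : ρ ^ (k + 1) - 1 = ρ ^ k * (ρ - 1) + (ρ ^ k - 1) := by ring
    rw [this]
    exact (InLocMax.mul_left h𝔪 (hρ.pow h𝔪 k) h1).add h𝔪 ih

/-- The constant coefficient `c₀` of `Π₀` is a local unit. -/
theorem c11_c0_unit (h𝔪 : 𝔪.IsPrime) {q : ℕ} {J₁ : E'}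
    (hρ : y ^ q * J₁ ∈ chartClosure A E' y)
    (hρ1 : InLocMax A E' y 𝔪 (y ^ q * J₁ - 1))
    (hι𝔪 : InLocMax A E' y 𝔪 y) {r : E'} (hr : r ∈ chartClosure A E' y) :
    InLoc A E' y 𝔪 ((y ^ q * J₁) ^ (q + 1) + (q : E') * (y * r)) ∧
    InLocMax A E' y 𝔪 ((y ^ q * J₁) ^ (q + 1) + (q : E') * (y * r) - 1) := by
  have hρL : InLoc A E' y 𝔪 (y ^ q * J₁) := InLoc.of_mem h𝔪 hρ
  have hqL : InLoc A E' y 𝔪 (q : E') := InLoc.of_mem h𝔪 (natCast_mem _ q)
  have hrL : InLoc A E' y 𝔪 r := InLoc.of_mem h𝔪 hr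
  refine ⟨(hρL.pow h𝔪 _).add h𝔪 (hqL.mul h𝔪 (hι𝔪.inLoc.mul h𝔪 hrL)), ?_⟩
  have : (y ^ q * J₁) ^ (q + 1) + (q : E') * (y * r) - 1 =
      ((y ^ q * J₁) ^ (q + 1) - 1) + ((q : E') * r) * y := by ring
  rw [this]
  exact (c11_pow_sub_one h𝔪 hρL hρ1 _).add h𝔪 (InLocMax.mul_left h𝔪 (hqL.mul h𝔪 hrL) hι𝔪)

variable {E : Type} [Field E] [Algebra E' E]

/-- `J₂ ≠ 0`. -/
theorem c11_J2_ne_zero (h𝔪 : 𝔪.IsPrime) {q : ℕ} (hq : 2 ≤ q) {J J₁ : E'} (hιJ : y * J = 1)
    (hρ : y ^ q * J₁ ∈ chartClosure A E' y)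
    (hρ1 : InLocMax A E' y 𝔪 (y ^ q * J₁ - 1))
    (hι𝔪 : InLocMax A E' y 𝔪 y)
    {G : Polynomial E'} (hg1 : ∀ k, y ^ (q * q) * G.coeff k ∈ chartClosure A E' y)
    (J₂ : E) (hroot : aeval J₂ (c11F q J₁ G) = 0) : J₂ ≠ 0 := by
  rintro rfl
  rw [← coeff_zero_eq_aeval_zero'] at hroot
  have h0 : (c11F q J₁ G).coeff 0 = 0 :=
    (algebraMap E' E).injective (by rw [hroot, map_zero])
  have hy : y ∈ chartClosure A E' y := c11_self_mem y
  have hr : y ^ (q - 1) * (y ^ (q * q) * G.coeff 0) ∈ chartClosure A E' y :=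
    Subalgebra.mul_mem _ (Subalgebra.pow_mem _ hy _) (hg1 0)
  obtain ⟨hc0, hc1⟩ := c11_c0_unit h𝔪 hρ hρ1 hι𝔪 hr
  have h1 := c11_coeff_zero hq hιJ (J₁ := J₁) G
  rw [← coeff_zero_eq_eval_zero, h0, mul_zero] at h1
  exact c11_ne_zero_of_not_inLocMax h𝔪 (c11_not_inLocMax h𝔪 hc1) h1.symm

/-- **Integrality** of `S = 1 - J / J₂` over `B'_{𝔪'}`. -/
theorem cusp11_integral (h𝔪 : 𝔪.IsPrime) {q : ℕ} (hq : 2 ≤ q) {J J₁ : E'} (hιJ : y * J = 1)
    (hρ : y ^ q * J₁ ∈ chartClosure A E' y)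
    (hρ1 : InLocMax A E' y 𝔪 (y ^ q * J₁ - 1))
    (hι𝔪 : InLocMax A E' y 𝔪 y)
    {G : Polynomial E'} (hGd : G.natDegree ≤ q)
    (hg1 : ∀ k, y ^ (q * q) * G.coeff k ∈ chartClosure A E' y)
    (J₂ : E) (hroot : aeval J₂ (c11F q J₁ G) = 0) :
    ∃ p : Polynomial E', p.Monic ∧ (∀ i, Fermat.Agent.H11.SS2.InLoc A E' y 𝔪 (p.coeff i)) ∧
      aeval (1 - algebraMap E' E J / J₂) p = 0 := by
  have hy : y ∈ chartClosure A E' y := c11_self_mem y
  have hJ2 : J₂ ≠ 0 := c11_J2_ne_zero h𝔪 hq hιJ hρ hρ1 hι𝔪 hg1 J₂ hroot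
  have hJ0 : J ≠ 0 := right_ne_zero_of_mul_eq_one hιJ
  have hJE : algebraMap E' E J ≠ 0 := fun h =>
    hJ0 ((algebraMap E' E).injective (by rw [h, map_zero]))
  -- the polynomial `Pi0`
  set F := c11F q J₁ G with hF
  set Pi0 : Polynomial E' := C (y ^ (q * q + q)) * F.comp (C J * X) with hPi
  have hcoeff : ∀ k, Pi0.coeff k = y ^ (q * q + q) * (F.coeff k * J ^ k) := fun k => by
    rw [hPi, coeff_C_mul, comp_C_mul_X_coeff]
  set v : E := J₂ / algebraMap E' E J with hv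
  have hv0 : v ≠ 0 := div_ne_zero hJ2 hJE
  have hPiv : aeval v Pi0 = 0 := by
    rw [hPi, map_mul, aeval_C, aeval_comp, map_mul, aeval_C, aeval_X]
    have : algebraMap E' E J * v = J₂ := by rw [hv]; field_simp
    rw [this, hroot, mul_zero]
  -- lift to the local ring
  set L := c11LocRing (A := A) (y := y) h𝔪 with hL
  have hmemB : ∀ k, Pi0.coeff k ∈ chartClosure A E' y := fun k => by
    rw [hcoeff]
    exact c11_coeff_mem (chartClosure A E' y).toSubring hq hιJ hy hρ hGd hg1 k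
  have hlift : Pi0 ∈ lifts L.subtype := (lifts_iff_coeff_lifts Pi0).2 fun n =>
    ⟨⟨Pi0.coeff n, InLoc.of_mem h𝔪 (hmemB n)⟩, rfl⟩
  obtain ⟨P₀, hP₀⟩ := (mem_lifts Pi0).1 hlift
  set f : L →+* E := (algebraMap E' E).comp L.subtype with hf
  have hP₀v : eval₂ f v P₀ = 0 := by
    rw [hf, ← eval₂_map, hP₀]
    exact hPiv
  haveI : Invertible v := invertibleOfNonzero hv0
  have hrev : eval₂ f (⅟v) (reverse P₀) = 0 := (eval₂_reverse_eq_zero_iff f v P₀).2 hP₀v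
  rw [invOf_eq_inv] at hrev
  -- the constant coefficient
  have hr : y ^ (q - 1) * (y ^ (q * q) * G.coeff 0) ∈ chartClosure A E' y :=
    Subalgebra.mul_mem _ (Subalgebra.pow_mem _ hy _) (hg1 0)
  obtain ⟨hc0, hc1⟩ := c11_c0_unit h𝔪 hρ hρ1 hι𝔪 hr
  have hc0eq : ((P₀.coeff 0 : L) : E') =
      (y ^ q * J₁) ^ (q + 1) + (q : E') * (y * (y ^ (q - 1) * (y ^ (q * q) * G.coeff 0))) := by
    have h1 : ((P₀.coeff 0 : L) : E') = Pi0.coeff 0 := by
      rw [← hP₀, coeff_map]; rfl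
    rw [h1, hcoeff, pow_zero, mul_one, coeff_zero_eq_eval_zero, hF]
    exact c11_coeff_zero hq hιJ G
  have hnm := c11_not_inLocMax h𝔪 hc1
  have hc0ne : ((P₀.coeff 0 : L) : E') ≠ 0 := by
    rw [hc0eq]; exact c11_ne_zero_of_not_inLocMax h𝔪 hnm
  have hP0ne : P₀.coeff 0 ≠ 0 := fun h => hc0ne (by rw [h]; rfl)
  have hlc : (reverse P₀).leadingCoeff = P₀.coeff 0 := by
    rw [reverse_leadingCoeff, trailingCoeff_eq_coeff_zero hP0ne]
  have hint1 : f.IsIntegralElem (f (P₀.coeff 0) * v⁻¹) := by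
    have := RingHom.isIntegralElem_leadingCoeff_mul f (reverse P₀) v⁻¹ hrev
    rwa [hlc] at this
  -- the inverse of `c₀` in the local ring
  have hinvL : InLoc A E' y 𝔪 (((P₀.coeff 0 : L) : E')⁻¹) := by
    rw [hc0eq]; exact hc0.inv_of_not_inLocMax hnm
  set cinv : L := ⟨((P₀.coeff 0 : L) : E')⁻¹, hinvL⟩ with hcinv
  have hmul : f cinv * f (P₀.coeff 0) = 1 := by
    rw [← map_mul]
    have : cinv * P₀.coeff 0 = 1 := Subtype.ext (by
      show ((P₀.coeff 0 : L) : E')⁻¹ * ((P₀.coeff 0 : L) : E') = 1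
      exact inv_mul_cancel₀ hc0ne)
    rw [this, map_one]
  have hint2 : f.IsIntegralElem v⁻¹ := by
    have h := (RingHom.isIntegralElem_map f (x := cinv)).mul f hint1
    rwa [← mul_assoc, hmul, one_mul] at h
  have hS : (1 : E) - algebraMap E' E J / J₂ = 1 - v⁻¹ := by
    rw [hv, inv_div]
  have hint3 : f.IsIntegralElem (1 - algebraMap E' E J / J₂) := by
    rw [hS]
    exact (RingHom.isIntegralElem_one f).sub f hint2
  obtain ⟨p₀, hmon, hev⟩ := hint3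
  refine ⟨p₀.map L.subtype, hmon.map _, fun i => ?_, ?_⟩
  · rw [coeff_map]
    exact (p₀.coeff i).2
  · rw [aeval_def, eval₂_map]
    exact hev

theorem c11_isLocUnit_div (h𝔪 : 𝔪.IsPrime) {z c : E'}
    (hz : Fermat.Agent.H11.SS2.IsLocUnit A E' y 𝔪 z)
    (hc : Fermat.Agent.H11.SS2.IsLocUnit A E' y 𝔪 c) :
    Fermat.Agent.H11.SS2.IsLocUnit A E' y 𝔪 (z / c) := by
  obtain ⟨hz0, hz1, hz2⟩ := hz
  obtain ⟨hc0, hc1, hc2⟩ := hc
  refine ⟨div_ne_zero hz0 hc0, ?_, ?_⟩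
  · rw [div_eq_mul_inv]; exact InLoc.mul h𝔪 hz1 hc2
  · rw [inv_div, div_eq_mul_inv]; exact InLoc.mul h𝔪 hc1 hz2

/-- **The norm** of `S = 1 - J / J₂` is `q` times a local unit. -/
theorem cusp11_norm [FiniteDimensional E' E] (h𝔪 : 𝔪.IsPrime) {q : ℕ} (hq : 2 ≤ q)
    {J J₁ : E'} (hιJ : y * J = 1)
    (hρ : y ^ q * J₁ ∈ chartClosure A E' y)
    (hρ1 : InLocMax A E' y 𝔪 (y ^ q * J₁ - 1))
    (hι𝔪 : InLocMax A E' y 𝔪 y)
    (σ : E') (hσ : InLoc A E' y 𝔪 σ) (hσ' : 1 - y ^ q * J₁ = (q : E') * σ)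
    {G : Polynomial E'} (hGd : G.natDegree ≤ q)
    (hg1 : ∀ k, y ^ (q * q) * G.coeff k ∈ chartClosure A E' y)
    (hg2 : y ^ (q * q - q) * G.coeff q ∈ chartClosure A E' y)
    (J₂ : E) (hfin : Module.finrank E' E = q)
    (hFd : (c11F q J₁ G).natDegree = q + 1)
    (hmin : c11F q J₁ G = (X - C J) * minpoly E' J₂) :
    ∃ w : E', Fermat.Agent.H11.SS2.IsLocUnit A E' y 𝔪 w ∧
      Algebra.norm E' (1 - algebraMap E' E J / J₂) = (q : E') * w := by
  have hy : y ∈ chartClosure A E' y := c11_self_mem y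
  set M := minpoly E' J₂ with hM
  have hMmon : M.Monic := minpoly.monic (IsIntegral.of_finite E' J₂)
  have hroot : aeval J₂ (c11F q J₁ G) = 0 := by
    rw [hmin, map_mul, hM, minpoly.aeval, mul_zero]
  have hJ2 : J₂ ≠ 0 := c11_J2_ne_zero h𝔪 hq hιJ hρ hρ1 hι𝔪 hg1 J₂ hroot
  have hdeg : M.natDegree = Module.finrank E' E := by
    have h1 : ((X - C J) * M).natDegree = (X - C J).natDegree + M.natDegree :=
      (monic_X_sub_C J).natDegree_mul hMmon
    rw [← hmin, hFd, natDegree_X_sub_C] at h1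
    rw [hfin]; omega
  have hN1 := c11_norm_sub J₂ J hdeg
  have hN0 := c11_norm_sub J₂ (0 : E') hdeg
  rw [map_zero, sub_zero] at hN0
  have hSmul : (1 - algebraMap E' E J / J₂) * J₂ = J₂ - algebraMap E' E J := by
    field_simp
  have hNS : Algebra.norm E' (1 - algebraMap E' E J / J₂) * M.eval 0 = M.eval J := by
    have h := congrArg (Algebra.norm E') hSmul
    rw [map_mul, hN1, hN0] at h
    have hne : ((-1 : E') ^ Module.finrank E' E) ≠ 0 := pow_ne_zero _ (by norm_num)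
    apply mul_left_cancel₀ hne
    rw [← h]; ring
  have hMJ : M.eval J = (derivative (c11F q J₁ G)).eval J := by
    rw [hmin, derivative_mul]; simp
  have hM0 : (c11F q J₁ G).eval 0 = - J * M.eval 0 := by
    rw [hmin]; simp
  -- exponents
  have hQ : 2 * 2 ≤ q * q := Nat.mul_le_mul hq hq
  obtain ⟨e', he'⟩ : ∃ e', q * q = e' + 1 + 1 := ⟨q * q - 2, by omega⟩
  have he : q * q = (e' + 1) + 1 := he'
  -- `c₀`
  have hr : y ^ (q - 1) * (y ^ (q * q) * G.coeff 0) ∈ chartClosure A E' y :=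
    Subalgebra.mul_mem _ (Subalgebra.pow_mem _ hy _) (hg1 0)
  obtain ⟨hc0, hc1⟩ := c11_c0_unit h𝔪 hρ hρ1 hι𝔪 hr
  have hc0eq := c11_coeff_zero hq hιJ (J₁ := J₁) G
  have hc0u := c11_isLocUnit h𝔪 hc0 hc1
  set c₀ : E' := (y ^ q * J₁) ^ (q + 1) +
    (q : E') * (y * (y ^ (q - 1) * (y ^ (q * q) * G.coeff 0))) with hc₀
  -- `D`
  have hD := c11_deriv hq hιJ hGd (e' + 1) he (J₁ := J₁)
  have hΞ : c11Xi q y G ∈ chartClosure A E' y :=
    c11Xi_mem (chartClosure A E' y).toSubring hy hg1 hg2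
  have h1 : y ^ (e' + 1 + q) * M.eval 0 = - c₀ := by
    rw [← hc0eq, hM0]
    have h2 : y ^ (q * q + q) = y ^ (e' + 1 + q) * y := by
      rw [← pow_succ]; congr 1; omega
    rw [h2]
    have h3 : y ^ (e' + 1 + q) * y * (-J * eval 0 M) =
        -(y ^ (e' + 1 + q) * eval 0 M) * (y * J) := by ring
    rw [h3, hιJ]; ring
  set ρ : E' := y ^ q * J₁ with hρdef
  set z : E' := ρ ^ q - (σ + 1) * y ^ (e' + 1) - y * c11Xi q y G with hz
  have hDz : y ^ (e' + 1 + q) * M.eval J = - ((q : E') * z) := by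
    rw [hMJ, hD]
    have h2 : ((q : E') + 1) * y ^ (e' + 1) - (q : E') * ρ ^ q - ρ * y ^ (e' + 1)
        + (q : E') * (y * c11Xi q y G)
        = (1 - ρ) * y ^ (e' + 1) + (q : E') * (y ^ (e' + 1) - ρ ^ q + y * c11Xi q y G) := by
      ring
    rw [h2, hσ', hz]; ring
  have hfinal : Algebra.norm E' (1 - algebraMap E' E J / J₂) * c₀ = (q : E') * z := by
    have h2 : y ^ (e' + 1 + q) * (Algebra.norm E' (1 - algebraMap E' E J / J₂) * M.eval 0) =
        y ^ (e' + 1 + q) * M.eval J := by rw [hNS]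
    rw [hDz] at h2
    have h3 : y ^ (e' + 1 + q) * (Algebra.norm E' (1 - algebraMap E' E J / J₂) * M.eval 0) =
        Algebra.norm E' (1 - algebraMap E' E J / J₂) * (y ^ (e' + 1 + q) * M.eval 0) := by ring
    rw [h3, h1] at h2
    have h4 : Algebra.norm E' (1 - algebraMap E' E J / J₂) * c₀ =
        -(Algebra.norm E' (1 - algebraMap E' E J / J₂) * -c₀) := by ring
    rw [h4, h2]; ring
  -- `z` is a local unit
  have hρL : InLoc A E' y 𝔪 ρ := InLoc.of_mem h𝔪 hρ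
  have hyL : InLoc A E' y 𝔪 y := InLoc.of_mem h𝔪 hy
  have hΞL : InLoc A E' y 𝔪 (c11Xi q y G) := InLoc.of_mem h𝔪 hΞ
  have h1L : InLoc A E' y 𝔪 (1 : E') := InLoc.of_mem h𝔪 (Subalgebra.one_mem _)
  have hzL : InLoc A E' y 𝔪 z :=
    ((hρL.pow h𝔪 q).sub h𝔪 ((hσ.add h𝔪 h1L).mul h𝔪 (hyL.pow h𝔪 _))).sub h𝔪
      (hyL.mul h𝔪 hΞL)
  have hz1 : InLocMax A E' y 𝔪 (z - 1) := by
    have h2 : z - 1 = (ρ ^ q - 1) - ((σ + 1) * y ^ e' + c11Xi q y G) * y := by
      rw [hz, pow_succ]; ring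
    rw [h2]
    exact (c11_pow_sub_one h𝔪 hρL hρ1 q).sub h𝔪
      (InLocMax.mul_left h𝔪 (((hσ.add h𝔪 h1L).mul h𝔪 (hyL.pow h𝔪 _)).add h𝔪 hΞL) hι𝔪)
  have hzu := c11_isLocUnit h𝔪 hzL hz1
  refine ⟨z / c₀, c11_isLocUnit_div h𝔪 hzu hc0u, ?_⟩
  have hc0ne : c₀ ≠ 0 := hc0u.1
  rw [mul_div_assoc', ← hfinal, mul_div_assoc, div_self hc0ne, mul_one]

/-- **CUSP11, the abstract norm package**: from PHI-SHARP (`Φ`, `Ψ`) and J-MINPOLY (`hfin`,
`hmin`), at a cuspidal point `𝔪'` (`ι = y ∈ 𝔪'`) with `ρ = ι^q J₁ ≡ 1` and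
`(1 - ρ) / q ∈ B'_{𝔪'}`: the function `S = 1 - J / J₂` is integral over `B'_{𝔪'}` and its norm
is `q` times a unit of `B'_{𝔪'}`. -/
theorem cusp11_data [FiniteDimensional E' E] (h𝔪 : 𝔪.IsPrime) {q : ℕ} (hq : 2 ≤ q)
    (Φ Ψ : Polynomial (Polynomial ℤ)) (hΦm : Φ.Monic) (hΦd : Φ.natDegree = q + 1)
    (hΦ : Φ = (X - C (X ^ q)) * (X ^ q - C X) + C (C (q : ℤ)) * Ψ)
    (hΨd : Ψ.natDegree ≤ q) (hΨc : ∀ b : ℕ, (Ψ.coeff b).natDegree ≤ q)
    (hΨqq : (Ψ.coeff q).coeff q = 0)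
    {J J₁ : E'} (hιJ : y * J = 1)
    (hρ : y ^ q * J₁ ∈ chartClosure A E' y)
    (hρ1 : InLocMax A E' y 𝔪 (y ^ q * J₁ - 1))
    (hι𝔪 : InLocMax A E' y 𝔪 y)
    (σ : E') (hσ : InLoc A E' y 𝔪 σ) (hσ' : 1 - y ^ q * J₁ = (q : E') * σ)
    (J₂ : E) (hfin : Module.finrank E' E = q)
    (hmin : Φ.map (eval₂RingHom (Int.castRingHom E') J₁) = (X - C J) * minpoly E' J₂) :
    (∃ p : Polynomial E', p.Monic ∧ (∀ i, Fermat.Agent.H11.SS2.InLoc A E' y 𝔪 (p.coeff i)) ∧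
      aeval (1 - algebraMap E' E J / J₂) p = 0) ∧
    ∃ w : E', Fermat.Agent.H11.SS2.IsLocUnit A E' y 𝔪 w ∧
      Algebra.norm E' (1 - algebraMap E' E J / J₂) = (q : E') * w := by
  have hy : y ∈ chartClosure A E' y := c11_self_mem y
  set G : Polynomial E' := Ψ.map (eval₂RingHom (Int.castRingHom E') J₁) with hG
  have hFG : Φ.map (eval₂RingHom (Int.castRingHom E') J₁) = c11F q J₁ G :=
    c11_map_eq q Φ Ψ hΦ J₁
  have hGd : G.natDegree ≤ q := natDegree_map_le.trans hΨd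
  have hGc : ∀ k, G.coeff k = (Ψ.coeff k).eval₂ (Int.castRingHom E') J₁ := fun k => by
    rw [hG, coeff_map, coe_eval₂RingHom]
  have hg1 : ∀ k, y ^ (q * q) * G.coeff k ∈ chartClosure A E' y := fun k => by
    rw [hGc]
    exact c11_normEval (chartClosure A E' y).toSubring y J₁ q hy hρ (Ψ.coeff k) q (q * q)
      (hΨc k) le_rfl
  have hdq : (Ψ.coeff q).natDegree ≤ q - 1 := by
    rw [natDegree_le_iff_coeff_eq_zero]
    intro N hN
    rcases Nat.lt_or_ge q N with h | h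
    · exact coeff_eq_zero_of_natDegree_lt ((hΨc q).trans_lt h)
    · have : N = q := by omega
      rw [this]; exact hΨqq
  have hg2 : y ^ (q * q - q) * G.coeff q ∈ chartClosure A E' y := by
    rw [hGc]
    exact c11_normEval (chartClosure A E' y).toSubring y J₁ q hy hρ (Ψ.coeff q) (q - 1)
      (q * q - q) hdq (by rw [Nat.mul_sub_one])
  have hFd : (c11F q J₁ G).natDegree = q + 1 := by
    rw [← hFG, hΦm.natDegree_map, hΦd]
  rw [hFG] at hmin
  have hroot : aeval J₂ (c11F q J₁ G) = 0 := by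
    rw [hmin, map_mul, minpoly.aeval, mul_zero]
  exact ⟨cusp11_integral h𝔪 hq hιJ hρ hρ1 hι𝔪 hGd hg1 J₂ hroot,
    cusp11_norm h𝔪 hq hιJ hρ hρ1 hι𝔪 σ hσ hσ' hGd hg1 hg2 J₂ hfin hFd hmin⟩

end Main

end Fermat.Agent.H22.SS2

end
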