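/-
P-SS2 row 1065 (SS2-C5f CUSP11), helper22: **the concrete cusp package** at level `M' q`.

`Cusp11PkgStatement M' q` : for `K₁`, `A₀` (`q` irreducible in `A₀`), `x = j ∈ E' =
ModelField K₁ (M' q)`, `W` the Atkin-Lehner automorphism, `x₂ = j(t^(q²)) ∈ E =
ModelField K₁ (M' q q)`, `α / β = heckeAlphaBar / heckeBetaBar K₁ (M' q) q` and the function
`S = 1 - α x / x₂` of level `M' q²`:

* `S ∈ 𝔪_V` for every valuation subring `V` of `E` above `vInf` along `α` and above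
  `vZero W` along `β` (i.e. `V = V₁₁`);
* at every CUSPIDAL point `𝔪'` (`x⁻¹ ∈ 𝔪'`) of the chart `x⁻¹` of level `M' q` which is a
  regular point `(q, U')` on `vInf`: `S` is integral over `B'_{𝔪'}` (along `α`) and
  `N_α(S) = q w` with `w` a unit of `B'_{𝔪'}`.

These are exactly the package hypotheses of `Fermat.Agent.H22.SS2.cusp11_of_pkg`.

`cusp11Pkg` : the package from J-MINPOLY (row 1076) and KRON-J (row 1109), with PHI-SHARP
(helper46) and CUSP-RHO (helper46) plugged in.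
-/
import Mathlib
import Fermat.Agent.H22.SS2.Cusp11Norm
import Fermat.Agent.H22.SS2.Cusp11Unif
import Fermat.Agent.H22.SS2.Cusp11Interfaces
import Fermat.Agent.H22.SS2.Cusp11Interfaces3
import Fermat.Agent.H46.SS2.PhiSharp
import Fermat.Agent.H46.SS.CuspRho
import Fermat.Agent.H65.SS.KtFrobNode

set_option autoImplicit false
set_option linter.unusedSectionVars false
set_option linter.style.haveILetI false
set_option linter.unusedVariables false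

noncomputable section

namespace Fermat.Agent.H22.SS2

open Polynomial ModularCurve AlgebraicCurve
open Fermat.Agent.H22.KL Fermat.Agent.H11.SS2 Fermat.Agent.H82.SS Fermat.Agent.H7.SS2
open Fermat.Agent.H27

/-- **The concrete cusp package of CUSP11.**  See the module docstring. -/
def Cusp11PkgStatement (M' q : ℕ) [NeZero M'] [NeZero q] : Prop :=
  ∀ (K₁ : Type) [Field K₁] [Algebra ℚ K₁] [FiniteDimensional ℚ K₁]
    (A₀ : Type) [CommRing A₀] [IsDomain A₀] [IsDiscreteValuationRing A₀]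
    [Algebra A₀ K₁] [IsFractionRing A₀ K₁]
    [Algebra A₀ (ModelField K₁ (M' * q))] [IsScalarTower A₀ K₁ (ModelField K₁ (M' * q))],
    Irreducible ((q : ℕ) : A₀) →
    ∀ (x : ModelField K₁ (M' * q)), (x : LaurentSeries K₁) = coeffEmb K₁ jq →
    ∀ (W : ModelField K₁ (M' * q) ≃ₐ[K₁] ModelField K₁ (M' * q)),
      IsAtkinLehnerModel K₁ M' q W →
    ∀ (x₂ : ModelField K₁ (M' * q * q)),
      (x₂ : LaurentSeries K₁) = qExpand K₁ q (qExpand K₁ q (coeffEmb K₁ jq)) →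
    (∀ V₁₁ : ValuationSubring (ModelField K₁ (M' * q * q)),
        V₁₁.comap (heckeAlphaBar K₁ (M' * q) q).toRingHom = vInf K₁ A₀ (M' * q) →
        V₁₁.comap (heckeBetaBar K₁ (M' * q) q).toRingHom = vZero K₁ A₀ (M' * q) W →
        1 - heckeAlphaBar K₁ (M' * q) q x / x₂ ∈ V₁₁.nonunits) ∧
    ∀ 𝔪' : Ideal (chartClosure A₀ (ModelField K₁ (M' * q)) x⁻¹), 𝔪'.IsPrime →
      (∀ h : x⁻¹ ∈ chartClosure A₀ (ModelField K₁ (M' * q)) x⁻¹,
        (⟨x⁻¹, h⟩ : chartClosure A₀ (ModelField K₁ (M' * q)) x⁻¹) ∈ 𝔪') →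
      ∀ U' : ModelField K₁ (M' * q),
        IsRegPoint A₀ (ModelField K₁ (M' * q)) ((q : ℕ) : A₀) x⁻¹ 𝔪' (vInf K₁ A₀ (M' * q))
          (algebraMap A₀ (ModelField K₁ (M' * q)) ((q : ℕ) : A₀)) U' →
        (∃ p : Polynomial (ModelField K₁ (M' * q)), p.Monic ∧
          (∀ i, InLoc A₀ (ModelField K₁ (M' * q)) x⁻¹ 𝔪' (p.coeff i)) ∧
          p.eval₂ (heckeAlphaBar K₁ (M' * q) q).toRingHom
            (1 - heckeAlphaBar K₁ (M' * q) q x / x₂) = 0) ∧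
        ∃ w : ModelField K₁ (M' * q), IsLocUnit A₀ (ModelField K₁ (M' * q)) x⁻¹ 𝔪' w ∧
          @Algebra.norm (ModelField K₁ (M' * q)) (ModelField K₁ (M' * q * q)) _ _
            (heckeAlphaBar K₁ (M' * q) q).toRingHom.toAlgebra
            (1 - heckeAlphaBar K₁ (M' * q) q x / x₂)
          = algebraMap A₀ (ModelField K₁ (M' * q)) ((q : ℕ) : A₀) * w

section Abs

variable {A : Type} [CommRing A] {E' : Type} [Field E'] [Algebra A E']
variable {E : Type} [Field E] [Algebra E' E] [FiniteDimensional E' E]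

/-- The package at a regular cuspidal point, abstractly (first half of `cusp11_final`). -/
theorem cusp11_pkg_abs
    (q : ℕ) (hq : q.Prime)
    (ϖ : A) (hϖ0 : algebraMap A E' ϖ ≠ 0) (hϖq : algebraMap A E' ϖ = (q : E'))
    (y' : E') (𝔪' : Ideal (chartClosure A E' y')) (h𝔪' : 𝔪'.IsPrime)
    (V₁₀ : ValuationSubring E')
    (U' : E') (hreg' : IsRegPoint A E' ϖ y' 𝔪' V₁₀ (algebraMap A E' ϖ) U')
    (hcusp : ∀ h : y' ∈ chartClosure A E' y', (⟨y', h⟩ : chartClosure A E' y') ∈ 𝔪')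
    (Φ Ψ : Polynomial (Polynomial ℤ)) (hΦm : Φ.Monic) (hΦd : Φ.natDegree = q + 1)
    (hΦ : Φ = (X - C (X ^ q)) * (X ^ q - C X) + C (C (q : ℤ)) * Ψ)
    (hΨd : Ψ.natDegree ≤ q) (hΨc : ∀ b : ℕ, (Ψ.coeff b).natDegree ≤ q)
    (hΨqq : (Ψ.coeff q).coeff q = 0)
    (J J₁ : E') (hιJ : y' * J = 1) (J₂ : E)
    (hfin : Module.finrank E' E = q)
    (hmin : Φ.map (eval₂RingHom (Int.castRingHom E') J₁) = (X - C J) * minpoly E' J₂)
    (hρ : y' ^ q * J₁ ∈ chartClosure A E' y')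
    (hρ1 : y' ^ q * J₁ - 1 ∈ V₁₀.nonunits) :
    (∃ p : Polynomial E', p.Monic ∧ (∀ i, InLoc A E' y' 𝔪' (p.coeff i)) ∧
      aeval (1 - algebraMap E' E J / J₂) p = 0) ∧
    ∃ w : E', IsLocUnit A E' y' 𝔪' w ∧
      Algebra.norm E' (1 - algebraMap E' E J / J₂) = algebraMap A E' ϖ * w := by
  have hq2 : 2 ≤ q := hq.two_le
  have hy'm : y' ∈ chartClosure A E' y' := c11_self_mem y'
  have hq0 : (q : E') ≠ 0 := hϖq ▸ hϖ0
  have hι𝔪 : Fermat.Agent.H99.SS2.InLocMax A E' y' 𝔪' y' :=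
    Fermat.Agent.H99.SS2.InLocMax.of_mem h𝔪' (hcusp hy'm)
  have hs : y' ^ q * J₁ - 1 ∈ chartClosure A E' y' :=
    Subalgebra.sub_mem _ hρ (Subalgebra.one_mem _)
  have hs𝔪 : (⟨y' ^ q * J₁ - 1, hs⟩ : chartClosure A E' y') ∈ 𝔪' := hreg'.thru ⟨_, hs⟩ hρ1
  have hρ1' : Fermat.Agent.H99.SS2.InLocMax A E' y' 𝔪' (y' ^ q * J₁ - 1) :=
    Fermat.Agent.H99.SS2.InLocMax.of_mem h𝔪' hs𝔪
  have hprin := hreg'.prin ⟨_, hs⟩ hρ1
  have hσ : Fermat.Agent.H99.SS2.InLoc A E' y' 𝔪'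
      (-((y' ^ q * J₁ - 1) / algebraMap A E' ϖ)) :=
    Fermat.Agent.H99.SS2.InLoc.neg hprin
  have hσ' : 1 - y' ^ q * J₁ = (q : E') * (-((y' ^ q * J₁ - 1) / algebraMap A E' ϖ)) := by
    rw [hϖq]; field_simp; ring
  obtain ⟨hSint, w, hw, hN⟩ := cusp11_data (A := A) (E := E) h𝔪' hq2 Φ Ψ hΦm hΦd hΦ hΨd hΨc
    hΨqq hιJ hρ hρ1' hι𝔪 _ hσ hσ' J₂ hfin hmin
  exact ⟨hSint, w, hw, by rw [hN, hϖq]⟩

end Abs

section Concrete

/-- **The concrete cusp package** from J-MINPOLY and KRON-J. -/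
theorem cusp11Pkg (M' q : ℕ) [NeZero M'] [NeZero q] (hq : q.Prime)
    (hJM : JMinpolyStatement M' q) (hKJ : ModelKronJStatement M' q) :
    Cusp11PkgStatement M' q := by
  intro K₁ _ _ _ A₀ _ _ _ _ _ _ _ hqi x hx W hW x₂ hx₂
  -- the level-`M'` coordinate and `x_q = W x`
  obtain ⟨x', hx', hαx⟩ := Fermat.Agent.H65.SS.ktf_exists_level_coord M' q x hx
  set xq : ModelField K₁ (M' * q) := heckeBetaBar K₁ M' q x' with hxqdef
  have hxqS : (xq : LaurentSeries K₁) = qExpand K₁ q (coeffEmb K₁ jq) := by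
    rw [hxqdef, coe_heckeBetaBar, hx']
  have hWx : W x = xq := by rw [← hαx]; exact hW.1 x'
  have hWxq : W xq = x := by rw [← hαx]; exact hW.2 x'
  have hcE : coeffEmb K₁ jq = jqModC K₁ := Fermat.Agent.H27.KLGB.coeffEmb_jq K₁
  have hJ : (x : LaurentSeries K₁) = jqModC K₁ := by rw [hx, hcE]
  have hJ₁ : (xq : LaurentSeries K₁) = baseS K₁ q := by rw [hxqS, hcE]; rfl
  have hJ₂ : (x₂ : LaurentSeries K₁) = rootInf K₁ q := by rw [hx₂, hcE]; rfl
  have hqm : ((q : ℕ) : A₀) ∈ IsLocalRing.maximalIdeal A₀ := by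
    rw [IsLocalRing.mem_maximalIdeal]; exact hqi.not_isUnit
  have hK : xq / x ^ q - 1 ∈ (vInf K₁ A₀ (M' * q)).nonunits := hKJ K₁ A₀ hqm x xq hJ hJ₁
  have hx0 : x ≠ 0 := by
    intro h0
    have h1 : (x : LaurentSeries K₁) = 0 := by rw [h0]; rfl
    rw [hJ] at h1
    have h2 := coeff_jqModC_neg_one K₁
    rw [h1, HahnSeries.coeff_zero] at h2
    exact zero_ne_one h2
  have hxq0 : xq ≠ 0 := by
    intro h0
    rw [h0] at hWxq
    rw [map_zero] at hWxq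
    exact hx0 hWxq.symm
  -- `β x = α x_q`, `β x_q = x₂`
  have hβJ : (heckeBetaBar K₁ (M' * q) q).toRingHom x
      = (heckeAlphaBar K₁ (M' * q) q).toRingHom xq := by
    apply Subtype.ext
    show ((heckeBetaBar K₁ (M' * q) q x : ModelField K₁ (M' * q * q)) : LaurentSeries K₁)
      = ((heckeAlphaBar K₁ (M' * q) q xq : ModelField K₁ (M' * q * q)) : LaurentSeries K₁)
    rw [coe_heckeBetaBar, coe_heckeAlphaBar, hx, hxqS]
  have hβJ₁ : (heckeBetaBar K₁ (M' * q) q).toRingHom xq = x₂ := by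
    apply Subtype.ext
    show ((heckeBetaBar K₁ (M' * q) q xq : ModelField K₁ (M' * q * q)) : LaurentSeries K₁)
      = (x₂ : LaurentSeries K₁)
    rw [coe_heckeBetaBar, hxqS, hx₂]
  have h₂ : x / xq ^ q - 1 ∈ (vZero K₁ A₀ (M' * q) W).nonunits := by
    rw [mem_nonunits_vZero_iff, map_sub, map_div₀, map_pow, map_one, hWx, hWxq]
    exact hK
  have hqA : algebraMap A₀ (ModelField K₁ (M' * q)) ((q : ℕ) : A₀)
      = ((q : ℕ) : ModelField K₁ (M' * q)) := map_natCast _ q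
  have hqne : ((q : ℕ) : ModelField K₁ (M' * q)) ≠ 0 := by
    haveI : CharZero K₁ := algebraRat.charZero K₁
    haveI : CharZero (ModelField K₁ (M' * q)) :=
      charZero_of_injective_algebraMap (algebraMap K₁ (ModelField K₁ (M' * q))).injective
    exact Nat.cast_ne_zero.2 hq.ne_zero
  have hqvInf : ((q : ℕ) : ModelField K₁ (M' * q)) ∈ (vInf K₁ A₀ (M' * q)).nonunits := by
    have h := (isUniformiser_vInf (K₁ := K₁) (A₀ := A₀) (N := M' * q) hqi).2.1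
    rwa [hqA] at h
  refine ⟨fun V₁₁ hα hβ => ?_, fun 𝔪' h𝔪' hcusp U' hreg' => ?_⟩
  · have hqV : ((q : ℕ) : ModelField K₁ (M' * q * q)) ∈ V₁₁.nonunits := by
      have h1 : ((q : ℕ) : ModelField K₁ (M' * q)) ∈
          (V₁₁.comap (heckeAlphaBar K₁ (M' * q) q).toRingHom).nonunits := by
        rw [hα]; exact hqvInf
      rw [Fermat.Agent.H99.SS2.mem_nonunits_comap_iff, map_natCast] at h1
      exact h1
    exact c11_mem_nonunits (heckeAlphaBar K₁ (M' * q) q).toRingHom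
      (heckeBetaBar K₁ (M' * q) q).toRingHom _ _ V₁₁ hα hβ q hq hqV x xq x₂ hx0 hxq0 hβJ hβJ₁
      hK h₂
  · letI : Algebra (ModelField K₁ (M' * q)) (ModelField K₁ (M' * q * q)) :=
      (heckeAlphaBar K₁ (M' * q) q).toRingHom.toAlgebra
    obtain ⟨hfd, hfin, hmin⟩ := hJM K₁ x xq x₂ hJ hJ₁ hJ₂
    haveI := hfd
    obtain ⟨Φ, Ψ, hΦm, hΦd, hΦ, hΨd, hΨc, hΨqq, hmod⟩ := Fermat.Agent.H46.SS2.phiSharp q hq
    haveI : CharZero K₁ := algebraRat.charZero K₁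
    have hmin' := hmin Φ hΦm hΦd (hmod K₁).1 (hmod K₁).2
    have hρ : x⁻¹ ^ q * xq ∈ chartClosure A₀ (ModelField K₁ (M' * q)) x⁻¹ :=
      Fermat.Agent.H46.SS.modelCuspRho M' q hq K₁ A₀ x xq hx hxqS
    have hρ1 : x⁻¹ ^ q * xq - 1 ∈ (vInf K₁ A₀ (M' * q)).nonunits := by
      have : x⁻¹ ^ q * xq = xq / x ^ q := by rw [inv_pow]; field_simp
      rw [this]; exact hK
    have hϖ0 : algebraMap A₀ (ModelField K₁ (M' * q)) ((q : ℕ) : A₀) ≠ 0 := by
      rw [hqA]; exact hqne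
    have key := cusp11_pkg_abs (A := A₀) (E' := ModelField K₁ (M' * q))
      (E := ModelField K₁ (M' * q * q)) q hq ((q : ℕ) : A₀) hϖ0 hqA x⁻¹ 𝔪' h𝔪'
      (vInf K₁ A₀ (M' * q)) U' hreg' hcusp Φ Ψ hΦm hΦd hΦ hΨd hΨc hΨqq x xq
      (inv_mul_cancel₀ hx0) x₂ hfin hmin' hρ hρ1
    obtain ⟨⟨p, hp, hc, h0⟩, w, hw, hN⟩ := key
    refine ⟨⟨p, hp, hc, ?_⟩, w, hw, hN⟩
    rw [aeval_def] at h0
    exact h0

end Concrete

end Fermat.Agent.H22.SS2

end
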