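/-
P-SS2 row 1065 (SS2-C5f CUSP11), helper22: **the model-level theorem** (twin of helper12's
`Fermat.Agent.H12.SS2.reg11_model` in the chart `1 / j`).

`cusp11_model` : level `M' q²`, chart `y = α (1 / j)`, base `A₀` unramified (`q` a uniformiser).
At a maximal ideal `𝔪 ∋ q` of `B(1 / j)` lying on `V₁₁` only, above a CUSPIDAL point `𝔪'`
(`1 / j ∈ 𝔪'`) of level `M' q`:
`∃ x₁ U, IsRegPoint A₀ E q y 𝔪 V₁₁ x₁ U`  (the existential of `Fermat.Agent.H19.SS2.AsmOne`).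

Inputs: the concrete cusp package `Cusp11PkgStatement M' q` (`cusp11Pkg`), `Val3Data` for
`α = heckeAlphaBar`, `β = heckeBetaBar`, `O₁ = vInf`, `O₂ = vZero W` (only `comap₁₁α`,
`comap₁₁β`, `res₁₁α` are used), the three `IsVertical` in the chart `y`, `C = V₂₀ ∩ V₁₁ ∩ V₀₂`,
`hA20`, `hA02`, the point below `𝔪'` (`LiesOverAlong`), `hfrac` for `vInf` in the chart `1 / j`
and the level-`L` regular point `(q, U')` at `𝔪'`.
Unconditional inputs plugged in: LOCAL HARTOGS (helper4), NORMPLACE + NORMPLACE-UNIF (helper46).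
-/
import Mathlib
import Fermat.Agent.H22.SS2.Cusp11OfPkg
import Fermat.Agent.H22.SS2.Cusp11Pkg
import Fermat.Agent.H11.SS2.Val3Defs
import Fermat.Agent.H4.SS.Hartogs
import Fermat.Agent.H46.SS2.NormPlace
import Fermat.Agent.H46.SS2.NormPlaceUnif

set_option autoImplicit false
set_option linter.unusedSectionVars false
set_option linter.style.haveILetI false
set_option linter.unusedVariables false

noncomputable section

namespace Fermat.Agent.H22.SS2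

open Polynomial ModularCurve AlgebraicCurve
open Fermat.Agent.H22.KL Fermat.Agent.H11.SS2 Fermat.Agent.H82.SS Fermat.Agent.H7.SS2

section Hom

variable (A : Type) [CommRing A] [IsDomain A] [IsDiscreteValuationRing A]
  (E' E : Type) [Field E'] [Field E] [Algebra A E'] [Algebra A E] [CharZero E']

/-- `cusp11_of_pkg` with the embedding `α : E' →+* E` as a ring homomorphism (the norm along
`α.toAlgebra`), in the style of helper12's `reg11_val3data`. -/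
theorem cusp11_of_pkg_hom
    (α : E' →+* E) (hαA : ∀ a : A, α (algebraMap A E' a) = algebraMap A E a)
    (hfin : @FiniteDimensional E' E _ _ (@Algebra.toModule E' E _ _ α.toAlgebra))
    (hinj' : Function.Injective (algebraMap A E'))
    (ϖ : A) (hϖ : Irreducible ϖ)
    (y' : E') (hy' : Transcendental A y')
    (hfd' : ∃ n : ℕ, Nonempty (Module.Basis (Fin n) (chartField A E' y') E'))
    (y : E) (hyy : α y' = y) (hy : Transcendental A y)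
    (hfd : ∃ n : ℕ, Nonempty (Module.Basis (Fin n) (chartField A E y) E))
    (𝔪 : Ideal (chartClosure A E y)) (h𝔪 : 𝔪.IsMaximal)
    (hϖ𝔪 : algebraMap A (chartClosure A E y) ϖ ∈ 𝔪)
    (𝔪' : Ideal (chartClosure A E' y')) (h𝔪' : 𝔪'.IsPrime)
    (hL : Fermat.Agent.H99.SS2.LiesOverAlong A E E' α y' y 𝔪' 𝔪)
    (V₂₀ V₁₁ V₀₂ : ValuationSubring E)
    (hV20 : IsVertical A E ϖ y V₂₀) (hV11 : IsVertical A E ϖ y V₁₁)
    (hV02 : IsVertical A E ϖ y V₀₂)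
    (hC : ∀ z : E, z ∈ V₂₀ → z ∈ V₁₁ → z ∈ V₀₂ → z ∈ gaussClosure A E ϖ y)
    (hthru : Through A E y 𝔪 V₁₁)
    (hA20 : ∃ s : chartClosure A E y, (s : E) ∈ V₂₀.nonunits ∧ s ∉ 𝔪)
    (hA02 : ∃ s : chartClosure A E y, (s : E) ∈ V₀₂.nonunits ∧ s ∉ 𝔪)
    (V₁₀ : ValuationSubring E') (hVV' : V₁₁.comap α = V₁₀)
    (hres : ∀ z ∈ V₁₁, ∃ z' ∈ V₁₀, z - α z' ∈ V₁₁.nonunits)
    (hfrac : ∀ z' ∈ V₁₀, ∃ d₁ d₂ : chartClosure A E' y',
      (d₂ : E') ∉ V₁₀.nonunits ∧ z' * (d₂ : E') = d₁)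
    (U' : E') (hreg' : IsRegPoint A E' ϖ y' 𝔪' V₁₀ (algebraMap A E' ϖ) U')
    (S : E) (hSV : S ∈ V₁₁.nonunits)
    (hSint : ∃ p : Polynomial E', p.Monic ∧ (∀ i, InLoc A E' y' 𝔪' (p.coeff i)) ∧
      p.eval₂ α S = 0)
    (w : E') (hw : IsLocUnit A E' y' 𝔪' w)
    (hN : @Algebra.norm E' E _ _ α.toAlgebra S = algebraMap A E' ϖ * w) :
    ∃ x₁ U : E, IsRegPoint A E ϖ y 𝔪 V₁₁ x₁ U := by
  letI : Algebra E' E := α.toAlgebra
  haveI : IsScalarTower A E' E := IsScalarTower.of_algebraMap_eq (fun a => (hαA a).symm)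
  haveI : FiniteDimensional E' E := hfin
  obtain ⟨p, hp, hc, h0⟩ := hSint
  exact cusp11_of_pkg A E' E Fermat.Agent.H4.SS.localHartogs Fermat.Agent.H46.SS2.normPlace
    Fermat.Agent.H46.SS2.normPlaceUnif hinj' ϖ hϖ y' hy' hfd' y hyy hy hfd 𝔪 h𝔪 hϖ𝔪 𝔪' h𝔪' hL
    V₂₀ V₁₁ V₀₂ hV20 hV11 hV02 hC hthru hA20 hA02 V₁₀ hVV' hres hfrac U' hreg' S hSV
    ⟨p, hp, hc, by rw [aeval_def]; exact h0⟩ w hw hN

end Hom

/-- **CUSP11 at the model level** (chart `1 / j`, cuspidal points on `V₁₁` only). -/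
theorem cusp11_model (M' q : ℕ) [NeZero M'] [NeZero q]
    (hpkg : Cusp11PkgStatement M' q)
    (K₁ : Type) [Field K₁] [Algebra ℚ K₁] [FiniteDimensional ℚ K₁]
    (A₀ : Type) [CommRing A₀] [IsDomain A₀] [IsDiscreteValuationRing A₀]
    [Algebra A₀ K₁] [IsFractionRing A₀ K₁]
    [Algebra A₀ (ModelField K₁ (M' * q))] [IsScalarTower A₀ K₁ (ModelField K₁ (M' * q))]
    [Algebra A₀ (ModelField K₁ (M' * q * q))]
    [IsScalarTower A₀ K₁ (ModelField K₁ (M' * q * q))]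
    (hqA : Irreducible ((q : ℕ) : A₀))
    (hfin : @FiniteDimensional (ModelField K₁ (M' * q)) (ModelField K₁ (M' * q * q)) _ _
      (@Algebra.toModule (ModelField K₁ (M' * q)) (ModelField K₁ (M' * q * q)) _ _
        (heckeAlphaBar K₁ (M' * q) q).toRingHom.toAlgebra))
    (x : ModelField K₁ (M' * q)) (hx : (x : LaurentSeries K₁) = coeffEmb K₁ jq)
    (hxt : Transcendental A₀ x⁻¹)
    (hfd' : ∃ n : ℕ, Nonempty (Module.Basis (Fin n)
      (chartField A₀ (ModelField K₁ (M' * q)) x⁻¹) (ModelField K₁ (M' * q))))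
    (y₂ : ModelField K₁ (M' * q * q))
    (hy₂ : (heckeAlphaBar K₁ (M' * q) q).toRingHom x⁻¹ = y₂)
    (hy₂t : Transcendental A₀ y₂)
    (hfd : ∃ n : ℕ, Nonempty (Module.Basis (Fin n)
      (chartField A₀ (ModelField K₁ (M' * q * q)) y₂) (ModelField K₁ (M' * q * q))))
    (W : ModelField K₁ (M' * q) ≃ₐ[K₁] ModelField K₁ (M' * q))
    (hW : IsAtkinLehnerModel K₁ M' q W)
    (Z : ModelField K₁ (M' * q * q)) (Y₁ : ModelField K₁ (M' * q))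
    (V₂₀ V₁₁ V₀₂ : ValuationSubring (ModelField K₁ (M' * q * q)))
    (hval : Val3Data (heckeAlphaBar K₁ (M' * q) q).toRingHom
      (heckeBetaBar K₁ (M' * q) q).toRingHom (vInf K₁ A₀ (M' * q))
      (vZero K₁ A₀ (M' * q) W) V₂₀ V₁₁ V₀₂ q Y₁ Z)
    (hV20 : IsVertical A₀ (ModelField K₁ (M' * q * q)) ((q : ℕ) : A₀) y₂ V₂₀)
    (hV11 : IsVertical A₀ (ModelField K₁ (M' * q * q)) ((q : ℕ) : A₀) y₂ V₁₁)
    (hV02 : IsVertical A₀ (ModelField K₁ (M' * q * q)) ((q : ℕ) : A₀) y₂ V₀₂)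
    (hC : ∀ z : ModelField K₁ (M' * q * q), z ∈ V₂₀ → z ∈ V₁₁ → z ∈ V₀₂ →
      z ∈ gaussClosure A₀ (ModelField K₁ (M' * q * q)) ((q : ℕ) : A₀) y₂)
    (hfrac : ∀ z' ∈ vInf K₁ A₀ (M' * q),
      ∃ d₁ d₂ : chartClosure A₀ (ModelField K₁ (M' * q)) x⁻¹,
      (d₂ : ModelField K₁ (M' * q)) ∉ (vInf K₁ A₀ (M' * q)).nonunits ∧
        z' * (d₂ : ModelField K₁ (M' * q)) = d₁)
    (𝔪 : Ideal (chartClosure A₀ (ModelField K₁ (M' * q * q)) y₂)) (h𝔪 : 𝔪.IsMaximal)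
    (hq𝔪 : algebraMap A₀ (chartClosure A₀ (ModelField K₁ (M' * q * q)) y₂) ((q : ℕ) : A₀) ∈ 𝔪)
    (hthru : Through A₀ (ModelField K₁ (M' * q * q)) y₂ 𝔪 V₁₁)
    (hA20 : ∃ s : chartClosure A₀ (ModelField K₁ (M' * q * q)) y₂,
      (s : ModelField K₁ (M' * q * q)) ∈ V₂₀.nonunits ∧ s ∉ 𝔪)
    (hA02 : ∃ s : chartClosure A₀ (ModelField K₁ (M' * q * q)) y₂,
      (s : ModelField K₁ (M' * q * q)) ∈ V₀₂.nonunits ∧ s ∉ 𝔪)
    (𝔪' : Ideal (chartClosure A₀ (ModelField K₁ (M' * q)) x⁻¹)) (h𝔪' : 𝔪'.IsPrime)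
    (hL : Fermat.Agent.H99.SS2.LiesOverAlong A₀ (ModelField K₁ (M' * q * q))
      (ModelField K₁ (M' * q)) (heckeAlphaBar K₁ (M' * q) q).toRingHom x⁻¹ y₂ 𝔪' 𝔪)
    (hcusp : ∀ h : x⁻¹ ∈ chartClosure A₀ (ModelField K₁ (M' * q)) x⁻¹,
      (⟨x⁻¹, h⟩ : chartClosure A₀ (ModelField K₁ (M' * q)) x⁻¹) ∈ 𝔪')
    (U' : ModelField K₁ (M' * q))
    (hreg' : IsRegPoint A₀ (ModelField K₁ (M' * q)) ((q : ℕ) : A₀) x⁻¹ 𝔪'
      (vInf K₁ A₀ (M' * q))
      (algebraMap A₀ (ModelField K₁ (M' * q)) ((q : ℕ) : A₀)) U') :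
    ∃ x₁ U : ModelField K₁ (M' * q * q),
      IsRegPoint A₀ (ModelField K₁ (M' * q * q)) ((q : ℕ) : A₀) y₂ 𝔪 V₁₁ x₁ U := by
  haveI : CharZero K₁ := algebraRat.charZero K₁
  haveI : CharZero (ModelField K₁ (M' * q)) :=
    charZero_of_injective_algebraMap (algebraMap K₁ (ModelField K₁ (M' * q))).injective
  -- `x₂ = j(t^(q²)) = β (W x)`
  set x₂ : ModelField K₁ (M' * q * q) := heckeBetaBar K₁ (M' * q) q (W x) with hx₂def
  obtain ⟨x', hx', hαx⟩ := Fermat.Agent.H65.SS.ktf_exists_level_coord M' q x hx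
  have hWx : W x = heckeBetaBar K₁ M' q x' := by rw [← hαx]; exact hW.1 x'
  have hx₂ : (x₂ : LaurentSeries K₁) = qExpand K₁ q (qExpand K₁ q (coeffEmb K₁ jq)) := by
    rw [hx₂def, coe_heckeBetaBar, hWx, coe_heckeBetaBar, hx']
  obtain ⟨hSV, hloc⟩ := hpkg K₁ A₀ hqA x hx W hW x₂ hx₂
  obtain ⟨⟨p, hp, hc, h0⟩, w, hw, hN⟩ := hloc 𝔪' h𝔪' hcusp U' hreg'
  have hinjK : Function.Injective (algebraMap A₀ K₁) := IsFractionRing.injective A₀ K₁
  have hinj' : Function.Injective (algebraMap A₀ (ModelField K₁ (M' * q))) := by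
    rw [IsScalarTower.algebraMap_eq A₀ K₁ (ModelField K₁ (M' * q))]
    exact (algebraMap K₁ (ModelField K₁ (M' * q))).injective.comp hinjK
  have hαA : ∀ a : A₀, (heckeAlphaBar K₁ (M' * q) q).toRingHom
      (algebraMap A₀ (ModelField K₁ (M' * q)) a) =
        algebraMap A₀ (ModelField K₁ (M' * q * q)) a := by
    intro a
    rw [IsScalarTower.algebraMap_apply A₀ K₁ (ModelField K₁ (M' * q)),
      IsScalarTower.algebraMap_apply A₀ K₁ (ModelField K₁ (M' * q * q))]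
    exact (heckeAlphaBar K₁ (M' * q) q).commutes _
  exact cusp11_of_pkg_hom A₀ (ModelField K₁ (M' * q)) (ModelField K₁ (M' * q * q))
    (heckeAlphaBar K₁ (M' * q) q).toRingHom hαA hfin hinj' ((q : ℕ) : A₀) hqA x⁻¹ hxt hfd' y₂ hy₂
    hy₂t hfd 𝔪 h𝔪 hq𝔪 𝔪' h𝔪' hL V₂₀ V₁₁ V₀₂ hV20 hV11 hV02 hC hthru hA20 hA02
    (vInf K₁ A₀ (M' * q)) hval.comap₁₁α hval.res₁₁α hfrac U' hreg'
    (1 - heckeAlphaBar K₁ (M' * q) q x / x₂) (hSV V₁₁ hval.comap₁₁α hval.comap₁₁β)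
    ⟨p, hp, hc, h0⟩ w hw hN

end Fermat.Agent.H22.SS2

end
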