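/-
P-SS2 row 1065 (SS2-C5f CUSP11), helper22: **the unconditional concrete cusp package**.

`cusp11PkgAll M' q : Cusp11PkgStatement M' q` for every prime `q ∤ M'` :
`cusp11Pkg` with J-MINPOLY (helper77 `jMinpoly` on helper1's `modelE1`) and KRON-J plugged in.
Use: `cusp11_model M' q (cusp11PkgAll M' q hq hcop) K₁ A₀ …`.
-/
import Mathlib
import Fermat.Agent.H22.SS2.Cusp11Model
import Fermat.Agent.H22.SS2.Cusp11KronJ
import Fermat.Agent.H77.SS2C.JMinpoly
import Fermat.Agent.H1.SS2.E1Final

set_option autoImplicit false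
set_option linter.unusedSectionVars false
set_option linter.style.haveILetI false
set_option linter.unusedVariables false

noncomputable section

namespace Fermat.Agent.H22.SS2

open Polynomial ModularCurve AlgebraicCurve
open Fermat.Agent.H22.KL Fermat.Agent.H11.SS2 Fermat.Agent.H82.SS Fermat.Agent.H7.SS2

/-- **The concrete cusp package, unconditional.** -/
theorem cusp11PkgAll (M' q : ℕ) [NeZero M'] [NeZero q] [NeZero (M' * q)] (hq : q.Prime)
    (hcop : Nat.Coprime M' q) : Cusp11PkgStatement M' q :=
  cusp11Pkg M' q hq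
    (Fermat.Agent.H77.jMinpoly M' q hq hcop (Fermat.Agent.H1.SS2.modelE1 M' q))
    (cusp11_modelKronJ M' q hq)

end Fermat.Agent.H22.SS2

end
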