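/-
P-SS2 (S36), (P) POINTS, the chart `x⁻¹` half (helper22): **abstract part**.

`pinv_abs` : helper99's `asmPt_val3_smooth` with the two points below constructed
(`pointBelow`), where the level-`L` input is needed at the CUSPIDAL closed points only:
`RegLAt` and "not a node".  The hypothesis `h11` (CUSP11) receives the point below along `α`,
its cuspidality and the level-`L` regular parameter system `(ϖ, U')`.
-/
import Mathlib
import Fermat.Agent.H99.SS2.AsmPt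

set_option autoImplicit false
set_option linter.unusedSectionVars false
set_option linter.unusedVariables false
set_option linter.style.haveILetI false

noncomputable section

namespace Fermat.Agent.H22.SS2

open Fermat.Agent.H22.KL Fermat.Agent.H11.SS2 Fermat.Agent.H7.SS2 Fermat.Agent.H19.SS2
open Fermat.Agent.H99.SS2

section Abs

variable {A : Type} [CommRing A] [IsDomain A] [IsDiscreteValuationRing A]
variable {E' : Type} [Field E'] [Algebra A E'] [CharZero E']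
variable {E : Type} [Field E] [Algebra A E] [CharZero E]

/-- **The per-point theorem at a cusp** (chart `y = x⁻¹`), with the level-`L` input at the
cuspidal points only. -/
theorem pinv_abs (hinj' : Function.Injective (algebraMap A E'))
    (hinj : Function.Injective (algebraMap A E))
    (q : ℕ) (hq : Irreducible ((q : ℕ) : A))
    {y' : E'} (hy' : Transcendental A y')
    (hfd' : ∃ n : ℕ, Nonempty (Module.Basis (Fin n) (chartField A E' y') E'))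
    {y : E} (hy : Transcendental A y)
    (hfd : ∃ n : ℕ, Nonempty (Module.Basis (Fin n) (chartField A E y) E))
    (α β : E' →+* E) (hα : ∀ a : A, α (algebraMap A E' a) = algebraMap A E a)
    (hβ : ∀ a : A, β (algebraMap A E' a) = algebraMap A E a)
    (O₁ O₂ : ValuationSubring E') (V₂₀ V₁₁ V₀₂ : ValuationSubring E) (X₁ Y₁ : E') (Z : E)
    (hval : Val3Data α β O₁ O₂ V₂₀ V₁₁ V₀₂ q Y₁ Z)
    (hV20 : IsVertical A E ((q : ℕ) : A) y V₂₀) (hV11 : IsVertical A E ((q : ℕ) : A) y V₁₁)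
    (hV02 : IsVertical A E ((q : ℕ) : A) y V₀₂)
    (hgauss : ∀ z : E, z ∈ V₂₀ → z ∈ V₁₁ → z ∈ V₀₂ → z ∈ gaussClosure A E ((q : ℕ) : A) y)
    (hfrac10 : ∀ z' ∈ O₁, ∃ d₁ d₂ : chartClosure A E' y',
      (d₂ : E') ∉ O₁.nonunits ∧ z' * (d₂ : E') = d₁)
    (hfrac01 : ∀ z' ∈ O₂, ∃ d₁ d₂ : chartClosure A E' y',
      (d₂ : E') ∉ O₂.nonunits ∧ z' * (d₂ : E') = d₁)
    (hcuspL : ∀ 𝔪' : Ideal (chartClosure A E' y'), 𝔪'.IsMaximal →
      algebraMap A (chartClosure A E' y') ((q : ℕ) : A) ∈ 𝔪' →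
      (∀ h : y' ∈ chartClosure A E' y', (⟨y', h⟩ : chartClosure A E' y') ∈ 𝔪') →
      RegLAt A E' ((q : ℕ) : A) y' 𝔪' O₁ O₂ X₁ Y₁ ∧
        ¬ (Through A E' y' 𝔪' O₁ ∧ Through A E' y' 𝔪' O₂))
    (𝔪 : Ideal (chartClosure A E y)) (h𝔪 : 𝔪.IsMaximal)
    (hq𝔪 : algebraMap A (chartClosure A E y) ((q : ℕ) : A) ∈ 𝔪)
    (hφα : ∀ s : chartClosure A E' y', Fermat.Agent.H99.SS2.InLoc A E y 𝔪 (α s))
    (hφβ : ∀ s : chartClosure A E' y', Fermat.Agent.H99.SS2.InLoc A E y 𝔪 (β s))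
    (hαy : InLocMax A E y 𝔪 (α y')) (hβy : InLocMax A E y 𝔪 (β y'))
    (h11 : ∀ 𝔪α : Ideal (chartClosure A E' y'), 𝔪α.IsMaximal →
      LiesOverAlong A E E' α y' y 𝔪α 𝔪 →
      (∀ h : y' ∈ chartClosure A E' y', (⟨y', h⟩ : chartClosure A E' y') ∈ 𝔪α) →
      Through A E y 𝔪 V₁₁ → ¬ Through A E y 𝔪 V₂₀ → ¬ Through A E y 𝔪 V₀₂ →
      (∃ U' : E', IsRegPoint A E' ((q : ℕ) : A) y' 𝔪α O₁
        (algebraMap A E' ((q : ℕ) : A)) U') →
      ∃ x₁ x₂ : E, IsRegPoint A E ((q : ℕ) : A) y 𝔪 V₁₁ x₁ x₂) :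
    AsmPt A E' E q α β O₁ O₂ V₂₀ V₁₁ V₀₂ y 𝔪 := by
  have h𝔪p : 𝔪.IsPrime := h𝔪.isPrime
  have hmα := pointBelow_isMaximal hinj hq hy hfd α hα y' 𝔪 h𝔪 hq𝔪 hφα
  have hmβ := pointBelow_isMaximal hinj hq hy hfd β hβ y' 𝔪 h𝔪 hq𝔪 hφβ
  have hqα := pi_mem_pointBelow α hα y' y 𝔪 h𝔪p hφα hq𝔪
  have hqβ := pi_mem_pointBelow β hβ y' y 𝔪 h𝔪p hφβ hq𝔪
  have hLα := liesOverAlong_pointBelow α y' y 𝔪 h𝔪p hφα
  have hLβ := liesOverAlong_pointBelow β y' y 𝔪 h𝔪p hφβ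
  obtain ⟨hregα, hsmα⟩ := hcuspL _ hmα hqα (fun _ => hαy)
  obtain ⟨hregβ, hsmβ⟩ := hcuspL _ hmβ hqβ (fun _ => hβy)
  exact asmPt_val3_smooth hinj' hinj q hq hy' hfd' hy α β hα hβ O₁ O₂ V₂₀ V₁₁ V₀₂ X₁ Y₁ Z hval
    hV20 hV11 hV02 hgauss hfrac10 hfrac01 𝔪 h𝔪p hq𝔪 _ _ hmα.isPrime hmβ.isPrime hLα hLβ
    hregα hregβ hsmα hsmβ
    (fun t n20 n02 a1 a2 _ _ =>
      h11 _ hmα hLα (fun _ => hαy) t n20 n02 (regLAt_smooth₁ hregα a1 a2))

end Abs

end Fermat.Agent.H22.SS2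

end
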