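/-
P-SS2 (S36), (P) POINTS, the chart `x⁻¹` half (helper22): **the model-level theorem**.

`asmPointsInv` : the second conjunct (`hpti`) of `Fermat.Agent.H35.SS2.AsmPoints` for the model
of level `M' q²` over an unramified base `OK`, with `O₁ = vInf`, `O₂ = vZero W`, from the global
package `AsmGlobal` (helper61) : every closed point `𝔪 ∋ q, x⁻¹` of the chart `x⁻¹` is a regular
point on exactly one of the three components.

HAUPTMODUL-FREE, all primes `q ∤ M'` (it serves the `q = 2` twin as well).  The only requirement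
on the base is a primitive `M'`-th root of unity in `K₁` (from `cuspGenR`).

Inputs (all landed, unconditional): helper99 `asmPt_val3_smooth`, `pointBelow`,
`modelCusp_beta`, `modelFrac_vInf_inv`, `modelFrac_vZero_inv`; helper7 `cuspGenR`,
`twoComp_model_inv`; helper89 `gaussClosureStatement`; helper22 `cusp11_model`, `cusp11PkgAll`.
-/
import Mathlib
import Fermat.Agent.H22.SS2.PointsInvAbs
import Fermat.Agent.H22.SS2.Cusp11All
import Fermat.Agent.H99.SS2.CuspBeta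
import Fermat.Agent.H99.SS2.FracL
import Fermat.Agent.H7.SS2.CuspGen
import Fermat.Agent.H35.SS2.AsmBase

set_option autoImplicit false
set_option linter.unusedSectionVars false
set_option linter.unusedVariables false
set_option linter.style.haveILetI false
set_option maxSynthPendingDepth 3
set_option synthInstance.maxHeartbeats 400000
set_option maxHeartbeats 1600000

noncomputable section

namespace Fermat.Agent.H22.SS2

open ModularCurve AlgebraicCurve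
open Fermat.Agent.H22.KL Fermat.Agent.H11.SS2 Fermat.Agent.H7.SS2 Fermat.Agent.H19.SS2
open Fermat.Agent.H35.SS2 Fermat.Agent.H7.SS Fermat.Agent.H82.SS Fermat.Agent.H48.QExp
open Fermat.Agent.H99.SS2

section Level

variable (M q : ℕ) [NeZero M] [NeZero q]
  (K₁ : Type) [Field K₁] [Algebra ℚ K₁] [FiniteDimensional ℚ K₁]
  (A₀ : Type) [CommRing A₀] [IsDomain A₀] [IsDiscreteValuationRing A₀]
  [Algebra A₀ K₁] [IsFractionRing A₀ K₁]
  [Algebra A₀ (ModelField K₁ (M * q))] [IsScalarTower A₀ K₁ (ModelField K₁ (M * q))]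

/-- **The cusps of level `M q`** (chart `x⁻¹`): `RegLAt` with ARBITRARY `X`, `Y` (a cusp is not
a node), from `cuspGenR`. -/
theorem pinv_regLAt_cusp (hq : q.Prime) (hqM : ¬ q ∣ M) (hqirr : Irreducible ((q : ℕ) : A₀))
    (hζ : ∃ ζ : K₁, IsPrimitiveRoot ζ M)
    (x : ModelField K₁ (M * q)) (hx : (x : LaurentSeries K₁) = coeffEmb K₁ jq)
    (W : ModelField K₁ (M * q) ≃ₐ[K₁] ModelField K₁ (M * q)) (hW : IsAtkinLehnerModel K₁ M q W)
    (X Y : ModelField K₁ (M * q))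
    (𝔪 : Ideal (chartClosure A₀ (ModelField K₁ (M * q)) x⁻¹)) (h𝔪 : 𝔪.IsMaximal)
    (hq𝔪 : algebraMap A₀ (chartClosure A₀ (ModelField K₁ (M * q)) x⁻¹) ((q : ℕ) : A₀) ∈ 𝔪)
    (hcusp : ∀ h : x⁻¹ ∈ chartClosure A₀ (ModelField K₁ (M * q)) x⁻¹,
      (⟨x⁻¹, h⟩ : chartClosure A₀ (ModelField K₁ (M * q)) x⁻¹) ∈ 𝔪) :
    RegLAt A₀ (ModelField K₁ (M * q)) ((q : ℕ) : A₀) x⁻¹ 𝔪
        (vInf K₁ A₀ (M * q)) (vZero K₁ A₀ (M * q) W) X Y ∧
      ¬ (Through A₀ (ModelField K₁ (M * q)) x⁻¹ 𝔪 (vInf K₁ A₀ (M * q)) ∧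
        Through A₀ (ModelField K₁ (M * q)) x⁻¹ 𝔪 (vZero K₁ A₀ (M * q) W)) := by
  have hqA : ¬ IsUnit ((q : ℕ) : A₀) := hqirr.not_isUnit
  have hinj := model_algebraMap_injective M q K₁ A₀
  have hT : Transcendental A₀ x := Fermat.Agent.H58.modelTranscendental_jq (M * q) K₁ A₀ x hx
  have hTCi := twoComp_model_inv M q K₁ A₀ hqA _ hqirr x hx W hW hq hqM
  have hTi : Transcendental A₀ x⁻¹ := Fermat.Agent.H89.klg_transcendental_inv hT
  have hcusp' : ∀ s : chartClosure A₀ (ModelField K₁ (M * q)) x⁻¹,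
      (s : ModelField K₁ (M * q)) = x⁻¹ → s ∈ 𝔪 := by
    intro s hs
    have h1 : x⁻¹ ∈ chartClosure A₀ (ModelField K₁ (M * q)) x⁻¹ := by
      have h0 := s.2
      rwa [hs] at h0
    have h2 : s = ⟨x⁻¹, h1⟩ := Subtype.ext hs
    rw [h2]
    exact hcusp h1
  obtain ⟨hboth, U, hU, hgen⟩ :=
    cuspGenR M q hq hqM K₁ A₀ hqA hζ _ hqirr x hx W hW 𝔪 h𝔪 hq𝔪 hcusp'
  refine ⟨?_, hboth⟩
  rcases hTCi.through_or hinj hqirr hTi 𝔪 h𝔪.isPrime hq𝔪 with h1 | h2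
  · have h2 : ¬ Through A₀ (ModelField K₁ (M * q)) x⁻¹ 𝔪 (vZero K₁ A₀ (M * q) W) :=
      fun h2 => hboth ⟨h1, h2⟩
    exact Or.inl ⟨h2, U,
      hTCi.isRegPoint_smooth hinj hqirr hTi 𝔪 h𝔪.isPrime h1 h2 U hU hgen⟩
  · have h1 : ¬ Through A₀ (ModelField K₁ (M * q)) x⁻¹ 𝔪 (vInf K₁ A₀ (M * q)) :=
      fun h1 => hboth ⟨h1, h2⟩
    exact Or.inr (Or.inl ⟨h1, U,
      hTCi.symm.isRegPoint_smooth hinj hqirr hTi 𝔪 h𝔪.isPrime h2 h1 U hU hgen⟩)

end Level

/-- **(P) POINTS, chart `x⁻¹`**: the hypothesis `hpti` of ASM-CORE for the model of level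
`M' q²`. -/
theorem asmPointsInv (M' q : ℕ) [NeZero M'] [NeZero q] (hq : q.Prime) (hqM : ¬ q ∣ M')
    (K₁ : Type) [Field K₁] [Algebra ℚ K₁] [FiniteDimensional ℚ K₁] (OK : ValuationSubring K₁)
    [IsDiscreteValuationRing ↥OK]
    [Algebra ↥OK (ModelField K₁ (M' * q))] [IsScalarTower ↥OK K₁ (ModelField K₁ (M' * q))]
    [Algebra ↥OK (ModelField K₁ (M' * q * q))]
    [IsScalarTower ↥OK K₁ (ModelField K₁ (M' * q * q))]
    (hirr : Irreducible ((q : ℕ) : ↥OK))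
    (hζ : ∃ ζ : K₁, IsPrimitiveRoot ζ M')
    (W : ModelField K₁ (M' * q) ≃ₐ[K₁] ModelField K₁ (M' * q))
    (hW : IsAtkinLehnerModel K₁ M' q W)
    {x : ModelField K₁ (M' * q * q)}
    {V20 V11 V02 : ValuationSubring (ModelField K₁ (M' * q * q))}
    {Y₁ : ModelField K₁ (M' * q)} {Z : ModelField K₁ (M' * q * q)}
    (hG : AsmGlobal M' q K₁ OK x (vInf K₁ ↥OK (M' * q)) (vZero K₁ ↥OK (M' * q) W)
      V20 V11 V02 Y₁ Z) :
    ∀ 𝔪 : Ideal (chartClosure ↥OK (ModelField K₁ (M' * q * q)) x⁻¹), 𝔪.IsMaximal →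
      algebraMap ↥OK (chartClosure ↥OK (ModelField K₁ (M' * q * q)) x⁻¹) ((q : ℕ) : ↥OK) ∈ 𝔪 →
      (∃ h : x⁻¹ ∈ chartClosure ↥OK (ModelField K₁ (M' * q * q)) x⁻¹,
        (⟨x⁻¹, h⟩ : chartClosure ↥OK (ModelField K₁ (M' * q * q)) x⁻¹) ∈ 𝔪) →
      AsmPt ↥OK (ModelField K₁ (M' * q)) (ModelField K₁ (M' * q * q)) q
        (asmα M' q K₁) (asmβ M' q K₁) (vInf K₁ ↥OK (M' * q)) (vZero K₁ ↥OK (M' * q) W)
        V20 V11 V02 x⁻¹ 𝔪 := by
  classical
  intro 𝔪 h𝔪 hq𝔪 hx𝔪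
  haveI : CharZero K₁ := algebraRat.charZero K₁
  haveI : CharZero (ModelField K₁ (M' * q)) :=
    charZero_of_injective_algebraMap (algebraMap K₁ (ModelField K₁ (M' * q))).injective
  haveI : CharZero (ModelField K₁ (M' * q * q)) :=
    charZero_of_injective_algebraMap (algebraMap K₁ (ModelField K₁ (M' * q * q))).injective
  haveI hMq : NeZero (M' * q) := ⟨Nat.mul_ne_zero (NeZero.ne M') (NeZero.ne q)⟩
  have hcop : Nat.Coprime M' q := ((Nat.Prime.coprime_iff_not_dvd hq).2 hqM).symm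
  have hqA : ¬ IsUnit ((q : ℕ) : ↥OK) := hirr.not_isUnit
  have h𝔪p : 𝔪.IsPrime := h𝔪.isPrime
  have hx : (x : LaurentSeries K₁) = jqModC K₁ := hG.chart
  -- the chart at level `M' q`
  have hxFmem : jqModC K₁ ∈ laurentBaseChange K₁ (modularFunctionFieldFull (M' * q)) := by
    rw [← ss2_coeffEmb_jq]
    exact coeffEmb_mem_laurentBaseChange K₁ (jqModC_mem_full ℚ (M' * q))
  obtain ⟨xF, hxF⟩ : ∃ xF : ModelField K₁ (M' * q), (xF : LaurentSeries K₁) = jqModC K₁ :=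
    ⟨⟨_, hxFmem⟩, rfl⟩
  have hxF' : (xF : LaurentSeries K₁) = coeffEmb K₁ jq := by rw [ss2_coeffEmb_jq]; exact hxF
  have hαx : asmα M' q K₁ xF = x := ss2_alpha_chart (M' * q) q K₁ x xF hx hxF
  have hαxi : asmα M' q K₁ xF⁻¹ = x⁻¹ := by rw [map_inv₀, hαx]
  have hβx : ((asmβ M' q K₁ xF : ModelField K₁ (M' * q * q)) : LaurentSeries K₁) =
      qExpand K₁ q (jqModC K₁) := by
    show ((heckeBetaBar K₁ (M' * q) q xF : ModelField K₁ (M' * q * q)) : LaurentSeries K₁) = _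
    rw [coe_heckeBetaBar, hxF]
  -- transcendence and finiteness
  have hxT : Transcendental ↥OK x := asm_transcendental (M' * q * q) K₁ OK x hx
  have hxFT : Transcendental ↥OK xF := asm_transcendental (M' * q) K₁ OK xF hxF
  have hy : Transcendental ↥OK x⁻¹ := Fermat.Agent.H89.klg_transcendental_inv hxT
  have hy' : Transcendental ↥OK xF⁻¹ := Fermat.Agent.H89.klg_transcendental_inv hxFT
  have hfd : ∃ n : ℕ, Nonempty (Module.Basis (Fin n)
      (chartField ↥OK (ModelField K₁ (M' * q * q)) x⁻¹) (ModelField K₁ (M' * q * q))) := by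
    rw [Fermat.Agent.H89.klg_chartField_inv]
    exact asm_finite (M' * q * q) K₁ OK x hx
  have hfd' : ∃ n : ℕ, Nonempty (Module.Basis (Fin n)
      (chartField ↥OK (ModelField K₁ (M' * q)) xF⁻¹) (ModelField K₁ (M' * q))) := by
    rw [Fermat.Agent.H89.klg_chartField_inv]
    exact asm_finite (M' * q) K₁ OK xF hxF
  have hinj' : Function.Injective (algebraMap ↥OK (ModelField K₁ (M' * q))) :=
    asm_algebraMap_injective (M' * q) K₁ OK
  have hinj : Function.Injective (algebraMap ↥OK (ModelField K₁ (M' * q * q))) :=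
    asm_algebraMap_injective (M' * q * q) K₁ OK
  -- compatibility with the base
  have hαA : ∀ a : ↥OK, asmα M' q K₁ (algebraMap ↥OK (ModelField K₁ (M' * q)) a) =
      algebraMap ↥OK (ModelField K₁ (M' * q * q)) a := by
    intro a
    rw [asm_algebraMap_model, asm_algebraMap_model]
    exact (heckeAlphaBar K₁ (M' * q) q).commutes _
  have hβA : ∀ a : ↥OK, asmβ M' q K₁ (algebraMap ↥OK (ModelField K₁ (M' * q)) a) =
      algebraMap ↥OK (ModelField K₁ (M' * q * q)) a := by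
    intro a
    rw [asm_algebraMap_model, asm_algebraMap_model]
    exact (heckeBetaBar K₁ (M' * q) q).commutes _
  -- the chart change for the Gauss closure
  have hC : gaussClosure ↥OK (ModelField K₁ (M' * q * q)) ((q : ℕ) : ↥OK) x⁻¹
      = gaussClosure ↥OK (ModelField K₁ (M' * q * q)) ((q : ℕ) : ↥OK) x :=
    (Fermat.Agent.H89.gaussClosureStatement ↥OK (ModelField K₁ (M' * q * q)) hinj _ hirr
      x hxT).2.2
  have hvert : ∀ V : ValuationSubring (ModelField K₁ (M' * q * q)),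
      IsVertical ↥OK (ModelField K₁ (M' * q * q)) ((q : ℕ) : ↥OK) x V →
      IsVertical ↥OK (ModelField K₁ (M' * q * q)) ((q : ℕ) : ↥OK) x⁻¹ V := by
    rintro V ⟨a1, a2, a3, a4⟩
    refine ⟨a1, a2, ?_, a4⟩
    intro z hz
    rw [hC] at hz
    exact a3 z hz
  have hgauss : ∀ z : ModelField K₁ (M' * q * q), z ∈ V20 → z ∈ V11 → z ∈ V02 →
      z ∈ gaussClosure ↥OK (ModelField K₁ (M' * q * q)) ((q : ℕ) : ↥OK) x⁻¹ := by
    intro z h1 h2 h3
    rw [hC]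
    exact (hG.gauss z).2 ⟨h1, h2, h3⟩
  -- the point
  obtain ⟨hxmem, hxin⟩ := hx𝔪
  have hξ : ∀ h : x⁻¹ ∈ chartClosure ↥OK (ModelField K₁ (M' * q * q)) x⁻¹,
      (⟨x⁻¹, h⟩ : chartClosure ↥OK (ModelField K₁ (M' * q * q)) x⁻¹) ∈ 𝔪 := fun _ => hxin
  obtain ⟨hφβ, hβy⟩ := modelCusp_beta (M' * q * q) q K₁ ↥OK hq x hx (asmβ M' q K₁) hβA xF hβx
    𝔪 h𝔪p hξ
  have hφα : ∀ s : chartClosure ↥OK (ModelField K₁ (M' * q)) xF⁻¹,
      Fermat.Agent.H99.SS2.InLoc ↥OK (ModelField K₁ (M' * q * q)) x⁻¹ 𝔪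
        (asmα M' q K₁ s) := by
    intro s
    refine InLoc.of_mem h𝔪p ?_
    have h := map_mem_chartClosure_self (asmα M' q K₁) hαA s.2
    rwa [hαxi] at h
  have hαy : InLocMax ↥OK (ModelField K₁ (M' * q * q)) x⁻¹ 𝔪 (asmα M' q K₁ xF⁻¹) := by
    rw [hαxi]
    have h0 := InLocMax.of_mem h𝔪p hxin
    exact h0
  refine pinv_abs hinj' hinj q hirr hy' hfd' hy hfd (asmα M' q K₁) (asmβ M' q K₁) hαA hβA
    (vInf K₁ ↥OK (M' * q)) (vZero K₁ ↥OK (M' * q) W) V20 V11 V02 0 Y₁ Z hG.val3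
    (hvert _ hG.vert20) (hvert _ hG.vert11) (hvert _ hG.vert02) hgauss
    (modelFrac_vInf_inv M' q K₁ ↥OK hq hqM hqA xF hxF' W hW)
    (modelFrac_vZero_inv M' q K₁ ↥OK hq hqM hqA xF hxF' W hW)
    (fun 𝔪' h𝔪' hq𝔪' hc =>
      pinv_regLAt_cusp M' q K₁ ↥OK hq hqM hirr hζ xF hxF' W hW 0 Y₁ 𝔪' h𝔪' hq𝔪' hc)
    𝔪 h𝔪 hq𝔪 hφα hφβ hαy hβy ?_
  -- CUSP11
  intro 𝔪α h𝔪α hLα hcα hthru hn20 hn02 hreg
  obtain ⟨U', hreg'⟩ := hreg
  have hA20 : ∃ s : chartClosure ↥OK (ModelField K₁ (M' * q * q)) x⁻¹,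
      (s : ModelField K₁ (M' * q * q)) ∈ V20.nonunits ∧ s ∉ 𝔪 := by
    unfold Through at hn20
    push Not at hn20
    exact hn20
  have hA02 : ∃ s : chartClosure ↥OK (ModelField K₁ (M' * q * q)) x⁻¹,
      (s : ModelField K₁ (M' * q * q)) ∈ V02.nonunits ∧ s ∉ 𝔪 := by
    unfold Through at hn02
    push Not at hn02
    exact hn02
  exact cusp11_model M' q (cusp11PkgAll M' q hq hcop) K₁ ↥OK hirr hG.degα.1 xF hxF' hy' hfd'
    x⁻¹ hαxi hy hfd W hW Z Y₁ V20 V11 V02 hG.val3 (hvert _ hG.vert20) (hvert _ hG.vert11)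
    (hvert _ hG.vert02) hgauss (modelFrac_vInf_inv M' q K₁ ↥OK hq hqM hqA xF hxF' W hW)
    𝔪 h𝔪 hq𝔪 hthru hA20 hA02 𝔪α h𝔪α.isPrime hLα hcα U' hreg'

end Fermat.Agent.H22.SS2

end
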