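/-
P-SS2 (S36), (P) POINTS, the chart `x⁻¹` half (helper22): **the statement of helper35's glue**.

`asmPointsInvStatement M' q hq hqM : Fermat.Agent.H35.SS2.AsmPointsInvStatement M' q M'`
(all primes `q ∤ M'`, no Hauptmodul) = `asmPointsInv`.
-/
import Mathlib
import Fermat.Agent.H22.SS2.PointsInv
import Fermat.Agent.H35.SS2.AsmGlue2

set_option autoImplicit false
set_option linter.unusedSectionVars false
set_option linter.unusedVariables false

noncomputable section

namespace Fermat.Agent.H22.SS2

open ModularCurve AlgebraicCurve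
open Fermat.Agent.H35.SS2

/-- **(P), chart `x⁻¹`, at the model level**: helper35's `AsmPointsInvStatement` with `R = M'`. -/
theorem asmPointsInvStatement (M' q : ℕ) [NeZero M'] [NeZero q] (hq : q.Prime)
    (hqM : ¬ q ∣ M') : AsmPointsInvStatement M' q M' := by
  intro K₁ _ _ _ OK _ _ _ _ _ hirr hζ Wq hWq x Y₁ Z V20 V11 V02 hG
  exact asmPointsInv M' q hq hqM K₁ OK hirr hζ Wq hWq hG

end Fermat.Agent.H22.SS2

end
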