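/-
P-SS2 row 1065 (SS2-C5f CUSP11), helper22: **the abstract final theorem**.

`cusp11_final` : at a CUSPIDAL closed point `𝔪` of level `L q` (chart `y = 1 / j`) lying on
`V₁₁` only, above the cuspidal point `𝔪'` of level `L` (regular with parameters `(q, U')`, on
`V₁₀`), the local ring is regular: `∃ x₁ U, IsRegPoint A E ϖ y 𝔪 V₁₁ x₁ U`.
The uniformiser is `x₁ = s₀ · (1 - J / J₂)`.

Inputs: the structural hypotheses of helper12's `Fermat.Agent.H12.SS2.reg11_core_gen`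
(the same as at the non-cuspidal points), PHI-SHARP (`Φ`, `Ψ`), J-MINPOLY (`hfin`, `hmin`),
the Kronecker congruences `ρ = ι^q J₁ ≡ 1` on `V₁₀` and `J / J₁^q ≡ 1` on `O₂ = V₀₁`, and
`β J = α J₁`, `β J₁ = J₂`, `V₁₁ ∩ β E' = O₂`.
-/
import Mathlib
import Fermat.Agent.H12.SS2.Reg11Gen
import Fermat.Agent.H22.SS2.Cusp11Norm
import Fermat.Agent.H22.SS2.Cusp11Unif

set_option autoImplicit false
set_option linter.unusedSectionVars false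
set_option linter.style.haveILetI false
set_option linter.unusedVariables false

noncomputable section

namespace Fermat.Agent.H22.SS2

open Polynomial
open Fermat.Agent.H22.KL Fermat.Agent.H11.SS2 Fermat.Agent.H45
open Fermat.Agent.H12.SS2

section Final

variable (A : Type) [CommRing A] [IsDomain A] [IsDiscreteValuationRing A]
  (E' E : Type) [Field E'] [Field E] [Algebra A E'] [Algebra A E] [Algebra E' E]
  [IsScalarTower A E' E] [CharZero E'] [FiniteDimensional E' E]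

/-- **CUSP11, abstract final theorem.**  See the module docstring. -/
theorem cusp11_final (hH : LocalHartogsStatement) (hNP : NormPlaceStatement)
    (hNU : NormPlaceUnifStatement)
    (hinj' : Function.Injective (algebraMap A E'))
    (q : ℕ) (hq : q.Prime)
    (ϖ : A) (hϖ : Irreducible ϖ) (hϖq : algebraMap A E' ϖ = (q : E'))
    (y' : E') (hy' : Transcendental A y')
    (hfd' : ∃ n : ℕ, Nonempty (Module.Basis (Fin n) (chartField A E' y') E'))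
    (y : E) (hyy : algebraMap E' E y' = y) (hy : Transcendental A y)
    (hfd : ∃ n : ℕ, Nonempty (Module.Basis (Fin n) (chartField A E y) E))
    (𝔪 : Ideal (chartClosure A E y)) (h𝔪 : 𝔪.IsMaximal)
    (hϖ𝔪 : algebraMap A (chartClosure A E y) ϖ ∈ 𝔪)
    (𝔪' : Ideal (chartClosure A E' y')) (h𝔪' : 𝔪'.IsPrime)
    (hL : Fermat.Agent.H99.SS2.LiesOverAlong A E E' (algebraMap E' E) y' y 𝔪' 𝔪)
    (V₂₀ V₁₁ V₀₂ : ValuationSubring E)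
    (hV20 : IsVertical A E ϖ y V₂₀) (hV11 : IsVertical A E ϖ y V₁₁)
    (hV02 : IsVertical A E ϖ y V₀₂)
    (hC : ∀ z : E, z ∈ V₂₀ → z ∈ V₁₁ → z ∈ V₀₂ → z ∈ gaussClosure A E ϖ y)
    (hthru : Through A E y 𝔪 V₁₁)
    (hA20 : ∃ s : chartClosure A E y, (s : E) ∈ V₂₀.nonunits ∧ s ∉ 𝔪)
    (hA02 : ∃ s : chartClosure A E y, (s : E) ∈ V₀₂.nonunits ∧ s ∉ 𝔪)
    (V₁₀ : ValuationSubring E') (hVV' : V₁₁.comap (algebraMap E' E) = V₁₀)
    (hres : ∀ z ∈ V₁₁, ∃ z' ∈ V₁₀, z - algebraMap E' E z' ∈ V₁₁.nonunits)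
    (hfrac : ∀ z' ∈ V₁₀, ∃ d₁ d₂ : chartClosure A E' y',
      (d₂ : E') ∉ V₁₀.nonunits ∧ z' * (d₂ : E') = d₁)
    (U' : E') (hreg' : IsRegPoint A E' ϖ y' 𝔪' V₁₀ (algebraMap A E' ϖ) U')
    -- the cusp data
    (hcusp : ∀ h : y' ∈ chartClosure A E' y', (⟨y', h⟩ : chartClosure A E' y') ∈ 𝔪')
    (Φ Ψ : Polynomial (Polynomial ℤ)) (hΦm : Φ.Monic) (hΦd : Φ.natDegree = q + 1)
    (hΦ : Φ = (X - C (X ^ q)) * (X ^ q - C X) + C (C (q : ℤ)) * Ψ)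
    (hΨd : Ψ.natDegree ≤ q) (hΨc : ∀ b : ℕ, (Ψ.coeff b).natDegree ≤ q)
    (hΨqq : (Ψ.coeff q).coeff q = 0)
    (J J₁ : E') (hιJ : y' * J = 1) (J₂ : E)
    (hfin : Module.finrank E' E = q)
    (hmin : Φ.map (eval₂RingHom (Int.castRingHom E') J₁) = (X - C J) * minpoly E' J₂)
    (hρ : y' ^ q * J₁ ∈ chartClosure A E' y')
    (hρ1 : y' ^ q * J₁ - 1 ∈ V₁₀.nonunits)
    (β : E' →+* E) (O₂ : ValuationSubring E') (hβ : V₁₁.comap β = O₂)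
    (hβJ : β J = algebraMap E' E J₁) (hβJ₁ : β J₁ = J₂)
    (h₂ : J / J₁ ^ q - 1 ∈ O₂.nonunits) :
    ∃ x₁ U : E, IsRegPoint A E ϖ y 𝔪 V₁₁ x₁ U := by
  have hq2 : 2 ≤ q := hq.two_le
  have hy'm : y' ∈ chartClosure A E' y' := c11_self_mem y'
  have hϖ0 : algebraMap A E' ϖ ≠ 0 := fun h0 =>
    hϖ.ne_zero (hinj' (by rw [h0, map_zero]))
  have hq0 : (q : E') ≠ 0 := hϖq ▸ hϖ0
  -- `ι ∈ 𝔪'`, `ρ - 1 ∈ 𝔪'`, `σ = (1 - ρ) / q`
  have hι𝔪 : Fermat.Agent.H99.SS2.InLocMax A E' y' 𝔪' y' :=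
    Fermat.Agent.H99.SS2.InLocMax.of_mem h𝔪' (hcusp hy'm)
  have hs : y' ^ q * J₁ - 1 ∈ chartClosure A E' y' :=
    Subalgebra.sub_mem _ hρ (Subalgebra.one_mem _)
  have hs𝔪 : (⟨y' ^ q * J₁ - 1, hs⟩ : chartClosure A E' y') ∈ 𝔪' := hreg'.thru ⟨_, hs⟩ hρ1
  have hρ1' : Fermat.Agent.H99.SS2.InLocMax A E' y' 𝔪' (y' ^ q * J₁ - 1) :=
    Fermat.Agent.H99.SS2.InLocMax.of_mem h𝔪' hs𝔪
  have hprin := hreg'.prin ⟨_, hs⟩ hρ1
  have hσ : Fermat.Agent.H99.SS2.InLoc A E' y' 𝔪'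
      (-((y' ^ q * J₁ - 1) / algebraMap A E' ϖ)) :=
    Fermat.Agent.H99.SS2.InLoc.neg hprin
  have hσ' : 1 - y' ^ q * J₁ = (q : E') * (-((y' ^ q * J₁ - 1) / algebraMap A E' ϖ)) := by
    rw [hϖq]; field_simp; ring
  obtain ⟨hSint, w, hw, hN⟩ := cusp11_data (A := A) (E := E) h𝔪' hq2 Φ Ψ hΦm hΦd hΦ hΨd hΨc
    hΨqq hιJ hρ hρ1' hι𝔪 _ hσ hσ' J₂ hfin hmin
  -- `V₁₀`
  obtain ⟨hne10, hpir10, hg10, hϖ10⟩ := hreg'.vert
  have hBV10 : ∀ z ∈ chartClosure A E' y', z ∈ V₁₀ := fun z hz =>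
    hg10 z (Fermat.Agent.H89.klg_chartClosure_le_gaussClosure hϖ hy' hz)
  have hloc10 : ∀ z : E', Fermat.Agent.H99.SS2.InLoc A E' y' 𝔪' z → z ∈ V₁₀ := fun z hz =>
    Fermat.Agent.H99.SS2.InLoc.mem_of_passesThrough hBV10 hreg'.thru hz
  have hSint10 : ∃ p : Polynomial E', p.Monic ∧ (∀ i, p.coeff i ∈ V₁₀) ∧
      aeval (1 - algebraMap E' E J / J₂) p = 0 := by
    obtain ⟨p, hp, hc, h0⟩ := hSint
    exact ⟨p, hp, fun i => hloc10 _ (hc i), h0⟩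
  have hπ : IsUniformiser E' V₁₀ (q : E') := hϖq ▸ hreg'.unif
  -- `S ∈ 𝔪_{V₁₁}`
  have hJ0 : J ≠ 0 := right_ne_zero_of_mul_eq_one hιJ
  have hy0 : y' ≠ 0 := left_ne_zero_of_mul_eq_one hιJ
  have hJ₁0 : J₁ ≠ 0 := by
    rintro rfl
    rw [mul_zero, zero_sub] at hρ1
    have h1 := Fermat.Agent.H99.SS2.neg_mem_nonunits V₁₀ hρ1
    rw [neg_neg, ValuationSubring.mem_nonunits_iff, map_one] at h1
    exact lt_irrefl _ h1
  have h₁ : J₁ / J ^ q - 1 ∈ V₁₀.nonunits := by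
    have : J₁ / J ^ q = y' ^ q * J₁ := by
      have hy'J : y' = J⁻¹ := eq_inv_of_mul_eq_one_left hιJ
      rw [hy'J, inv_pow]; field_simp
    rw [this]; exact hρ1
  have hqV : (q : E) ∈ V₁₁.nonunits := by
    have h := hV11.2.2.2
    rwa [IsScalarTower.algebraMap_apply A E' E, hϖq, map_natCast] at h
  have hSV : 1 - algebraMap E' E J / J₂ ∈ V₁₁.nonunits :=
    c11_mem_nonunits (algebraMap E' E) β V₁₀ O₂ V₁₁ hVV' hβ q hq hqV J J₁ J₂ hJ0 hJ₁0 hβJ hβJ₁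
      h₁ h₂
  have hunif : IsUniformiser E V₁₁ (1 - algebraMap E' E J / J₂) :=
    c11_isUniformiser hNU V₁₀ hne10 hpir10 V₁₁ hVV' _ hSint10 (q : E') w hπ
      (hloc10 _ hw.2.1) (hloc10 _ hw.2.2) hw.1 hN hSV
  -- helper12's formal core
  refine reg11_core_gen A E' E hH hNP hinj' ϖ hϖ y' hy' hfd' y hyy hy hfd 𝔪 h𝔪 hϖ𝔪 𝔪' h𝔪' hL
    V₂₀ V₁₁ V₀₂ hV20 hV11 hV02 hC hthru hA20 hA02 (1 - algebraMap E' E J / J₂) hSint hunif
    V₁₀ hVV' hres hfrac U' hreg' w hw 1 ?_ (Or.inl ?_)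
  · rw [hN, hϖq]; simp
  · exact Fermat.Agent.H99.SS2.one_not_mem_of_isPrime h𝔪'

end Final

end Fermat.Agent.H22.SS2

end
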